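import Fermat.Agent.S28.Defs

set_option autoImplicit false

namespace Fermat.Agent.S28

open Polynomial

/-- nonzero Laurent series all of whose coefficients in degree `≤ 0` vanish have positive order. -/
theorem np_order_pos {κ : Type*} [Field κ] {v : LaurentSeries κ}
    (h0 : v ≠ 0) (h : ∀ m : ℤ, m ≤ 0 → v.coeff m = 0) : 0 < v.order := by
  by_contra hcon
  exact h0 (HahnSeries.coeff_order_eq_zero.mp (h _ (not_lt.mp hcon)))

/-- a product of nonzero Laurent series of positive order is nonzero, of order at least the number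
of factors. -/
theorem np_prod {κ : Type*} [Field κ] (S : Multiset (LaurentSeries κ))
    (hS : ∀ v ∈ S, v ≠ 0 ∧ ∀ m : ℤ, m ≤ 0 → v.coeff m = 0) :
    S.prod ≠ 0 ∧ (Multiset.card S : ℤ) ≤ S.prod.order := by
  induction S using Multiset.induction_on with
  | empty => simp
  | cons a S ih =>
    have hS' : ∀ v ∈ S, v ≠ 0 ∧ ∀ m : ℤ, m ≤ 0 → v.coeff m = 0 :=
      fun v hv => hS v (Multiset.mem_cons_of_mem hv)
    obtain ⟨h1, h2⟩ := ih hS'
    obtain ⟨ha0, ha⟩ := hS a (Multiset.mem_cons_self a S)
    have hpos := np_order_pos ha0 ha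
    refine ⟨by rw [Multiset.prod_cons]; exact mul_ne_zero ha0 h1, ?_⟩
    rw [Multiset.prod_cons, HahnSeries.order_mul ha0 h1, Multiset.card_cons]
    push_cast
    omega

/-- the key contradiction: a polynomial over `k[X]` cannot become a nonempty product of
`Z - v` with all `v` nonzero of positive order. -/
theorem np_false {k κ : Type*} [Field k] [Field κ] [Algebra k κ]
    (J : LaurentSeries κ)
    (hJ : ∀ p : k[X], p ≠ 0 → ∃ m : ℤ, m ≤ 0 ∧ (evP k J p).coeff m ≠ 0)
    (g : k[X][X]) (S : Multiset (LaurentSeries κ)) (hS0 : S ≠ 0)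
    (hS : ∀ v ∈ S, v ≠ 0 ∧ ∀ m : ℤ, m ≤ 0 → v.coeff m = 0)
    (hfac : g.map (evP k J) = (S.map fun v => X - C v).prod) : False := by
  have hc : evP k J (g.coeff 0) = (S.map fun v => -v).prod := by
    rw [← Polynomial.coeff_map, hfac, Polynomial.coeff_zero_eq_eval_zero,
      Polynomial.eval_multiset_prod, Multiset.map_map]
    congr 1
    refine Multiset.map_congr rfl fun v _ => ?_
    simp
  have hS' : ∀ v ∈ S.map (fun v => -v), v ≠ 0 ∧ ∀ m : ℤ, m ≤ 0 → v.coeff m = 0 := by
    intro v hv
    obtain ⟨u, hu, rfl⟩ := Multiset.mem_map.mp hv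
    obtain ⟨h1, h2⟩ := hS u hu
    exact ⟨neg_ne_zero.mpr h1, fun m hm => by simp [h2 m hm]⟩
  obtain ⟨h1, h2⟩ := np_prod _ hS'
  rw [← hc, Multiset.card_map] at h2
  rw [← hc] at h1
  have hg0 : g.coeff 0 ≠ 0 := by
    intro h
    rw [h, map_zero] at h1
    exact h1 rfl
  obtain ⟨m, hm, hne⟩ := hJ _ hg0
  have hcard : 0 < Multiset.card S := Multiset.card_pos.mpr hS0
  have : m < (evP k J (g.coeff 0)).order := by
    have : (0 : ℤ) < (Multiset.card S : ℤ) := by exact_mod_cast hcard
    omega
  exact hne (HahnSeries.coeff_eq_zero_of_lt_order this)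

/-- Newton polygon irreducibility criterion.  `w ∈ k[X][Z]` monic; after `X ↦ J` it splits over
`κ((t))` with all roots but one nonzero of positive order, while nonzero polynomials in `J` never
have positive order.  Then `w` is irreducible over `k(X)`. -/
theorem irreducible_of_roots {k κ : Type*} [Field k] [Field κ] [Algebra k κ]
    (J : LaurentSeries κ)
    (hJ : ∀ p : k[X], p ≠ 0 → ∃ m : ℤ, m ≤ 0 ∧ (evP k J p).coeff m ≠ 0)
    (w : k[X][X]) (hw : w.Monic) (v₀ : LaurentSeries κ) (vs : Multiset (LaurentSeries κ))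
    (hvs : ∀ v ∈ vs, v ≠ 0 ∧ ∀ m : ℤ, m ≤ 0 → v.coeff m = 0)
    (hfac : w.map (evP k J) = (X - C v₀) * (vs.map fun v => X - C v).prod) :
    Irreducible (w.map (algebraMap k[X] (FractionRing k[X]))) := by
  rw [← hw.irreducible_iff_irreducible_map_fraction_map, hw.irreducible_iff_natDegree]
  have hP0 : (vs.map fun v => X - C v).prod ≠ 0 :=
    (monic_multiset_prod_of_monic _ _ fun v _ => monic_X_sub_C v).ne_zero
  -- a monic factor whose image divides the product over `vs` has degree zero
  have key : ∀ g : k[X][X], g.Monic → g.map (evP k J) ∣ (vs.map fun v => X - C v).prod →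
      g.natDegree = 0 := by
    intro g hg hdvd
    by_contra hdeg
    have hgm : (g.map (evP k J)).Monic := hg.map _
    have hsplit : (g.map (evP k J)).Splits :=
      Splits.of_dvd (Splits.multisetProd fun f hf => by
        obtain ⟨v, _, rfl⟩ := Multiset.mem_map.mp hf
        exact Splits.X_sub_C v) hP0 hdvd
    have hle : (g.map (evP k J)).roots ≤ vs := by
      have := roots.le_of_dvd hP0 hdvd
      rwa [roots_multiset_prod_X_sub_C] at this
    refine np_false J hJ g (g.map (evP k J)).roots ?_
      (fun v hv => hvs v (Multiset.mem_of_le hle hv)) (hsplit.eq_prod_roots_of_monic hgm)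
    intro h0
    have := hsplit.natDegree_eq_card_roots
    rw [h0, Multiset.card_zero, hg.natDegree_map] at this
    exact hdeg this
  refine ⟨?_, ?_⟩
  · rintro rfl
    have h := congrArg natDegree hfac
    rw [Polynomial.map_one, natDegree_one, natDegree_mul (X_sub_C_ne_zero v₀) hP0,
      natDegree_X_sub_C] at h
    omega
  · intro f g hf hg hfg
    have hmap : f.map (evP k J) * g.map (evP k J)
        = (X - C v₀) * (vs.map fun v => X - C v).prod := by
      rw [← Polynomial.map_mul, hfg, hfac]
    have hprime : Prime (X - C v₀ : (LaurentSeries κ)[X]) := prime_X_sub_C v₀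
    have hdvd : (X - C v₀ : (LaurentSeries κ)[X]) ∣ f.map (evP k J) * g.map (evP k J) :=
      hmap ▸ dvd_mul_right _ _
    rcases hprime.dvd_or_dvd hdvd with ⟨h, hh⟩ | ⟨h, hh⟩
    · right
      apply key g hg
      refine ⟨h, ?_⟩
      apply mul_left_cancel₀ (X_sub_C_ne_zero v₀)
      rw [← hmap, hh]; ring
    · left
      apply key f hf
      refine ⟨h, ?_⟩
      apply mul_left_cancel₀ (X_sub_C_ne_zero v₀)
      rw [← hmap, hh]; ring

/-- In the situation of `irreducible_of_roots` the distinguished root is not among the others. -/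
theorem not_mem_of_roots {k κ : Type*} [Field k] [Field κ] [Algebra k κ]
    (J : LaurentSeries κ)
    (hJ : ∀ p : k[X], p ≠ 0 → ∃ m : ℤ, m ≤ 0 ∧ (evP k J p).coeff m ≠ 0)
    (w : k[X][X]) (v₀ : LaurentSeries κ) (vs : Multiset (LaurentSeries κ))
    (hvs : ∀ v ∈ vs, v ≠ 0 ∧ ∀ m : ℤ, m ≤ 0 → v.coeff m = 0)
    (hfac : w.map (evP k J) = (X - C v₀) * (vs.map fun v => X - C v).prod) :
    v₀ ∉ vs := by
  intro hmem
  refine np_false J hJ w (v₀ ::ₘ vs) (Multiset.cons_ne_zero) ?_ ?_
  · intro v hv
    rcases Multiset.mem_cons.mp hv with rfl | hv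
    · exact hvs _ hmem
    · exact hvs _ hv
  · rw [hfac, Multiset.map_cons, Multiset.prod_cons]

/-- order of a polynomial expression in a Laurent series with a pole. -/
theorem np_order_aeval {k κ : Type*} [Field k] [Field κ] [Algebra k κ]
    (J : LaurentSeries κ) (hJ : J.order < 0) :
    ∀ (n : ℕ) (p : k[X]), p.natDegree = n → p ≠ 0 →
      (evP k J p).orderTop = ((n • J.order : ℤ) : WithTop ℤ) := by
  have hJ0 : J ≠ 0 := by
    rintro rfl
    simp at hJ
  intro n
  induction n using Nat.strong_induction_on with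
  | _ n ih =>
    intro p hn hp
    have ha : p.leadingCoeff ≠ 0 := leadingCoeff_ne_zero.mpr hp
    set T : LaurentSeries κ := algebraMap k (LaurentSeries κ) p.leadingCoeff * J ^ n with hT
    have hA0 : algebraMap k (LaurentSeries κ) p.leadingCoeff ≠ 0 := by
      simpa using ha
    have hAord : (algebraMap k (LaurentSeries κ) p.leadingCoeff).order = 0 := by
      have : algebraMap k (LaurentSeries κ) p.leadingCoeff
          = HahnSeries.C (algebraMap k κ p.leadingCoeff) := by
        rw [HahnSeries.algebraMap_apply', PowerSeries.algebraMap_apply, HahnSeries.ofPowerSeries_C]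
      rw [this]
      exact HahnSeries.order_C
    have hT0 : T ≠ 0 := mul_ne_zero hA0 (pow_ne_zero _ hJ0)
    have hTord : T.orderTop = ((n • J.order : ℤ) : WithTop ℤ) := by
      rw [← HahnSeries.order_eq_orderTop_of_ne_zero hT0, hT,
        HahnSeries.order_mul hA0 (pow_ne_zero _ hJ0), hAord, HahnSeries.order_pow, zero_add]
    have hdecomp : evP k J p = evP k J p.eraseLead + T := by
      conv_lhs => rw [← eraseLead_add_C_mul_X_pow p]
      rw [map_add, hn, hT]
      congr 1
      simp [evP]
    rcases eraseLead_natDegree_lt_or_eraseLead_eq_zero p with hlt | h0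
    · by_cases hq : p.eraseLead = 0
      · rw [hdecomp, hq, map_zero, zero_add, hTord]
      · have hIH := ih p.eraseLead.natDegree (hn ▸ hlt) p.eraseLead rfl hq
        rw [hdecomp, HahnSeries.orderTop_add_eq_right, hTord]
        rw [hTord, hIH]
        have h1 : (p.eraseLead.natDegree : ℤ) < n := by exact_mod_cast (hn ▸ hlt)
        simp only [nsmul_eq_mul]
        exact_mod_cast (by nlinarith : (n : ℤ) * J.order < (p.eraseLead.natDegree : ℤ) * J.order)
    · rw [hdecomp, h0, map_zero, zero_add, hTord]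

/-- A nonzero polynomial in a Laurent series with a simple-type pole (leading coefficient not a
zero divisor, negative order) has a nonzero coefficient in degree `≤ 0`. -/
theorem exists_coeff_ne_zero_of_pole {k κ : Type*} [Field k] [Field κ] [Algebra k κ]
    (J : LaurentSeries κ) (hJ : J.order < 0) (p : k[X]) (hp : p ≠ 0) :
    ∃ m : ℤ, m ≤ 0 ∧ (evP k J p).coeff m ≠ 0 := by
  have h1 := np_order_aeval J hJ p.natDegree p rfl hp
  refine ⟨p.natDegree • J.order, ?_, HahnSeries.coeff_orderTop_ne h1⟩
  have : (0 : ℤ) ≤ (p.natDegree : ℤ) := Int.natCast_nonneg _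
  simp only [nsmul_eq_mul]
  nlinarith

end Fermat.Agent.S28
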