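import Fermat.Agent.S28.Defs

set_option autoImplicit false

namespace Fermat.Agent.S28

open ModularCurve Polynomial

noncomputable section

/-- If `w ∈ k[X][Z]` is monic and irreducible over `k(X)`, and `y` is a root of `w` in a field
extension (through an injective `φ : k[X] → L`), then no nonzero polynomial of smaller degree
kills `y`. -/
theorem eq_zero_of_eval₂_eq_zero_of_natDegree_lt {k L : Type*} [Field k] [Field L]
    (φ : k[X] →+* L) (hφ : Function.Injective φ) (w : k[X][X]) (hw : w.Monic)
    (hirr : Irreducible (w.map (algebraMap k[X] (FractionRing k[X])))) (y : L)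
    (hy : w.eval₂ φ y = 0) (U : k[X][X]) (hU : U.eval₂ φ y = 0)
    (hdeg : U.natDegree < w.natDegree) : U = 0 := by
  let φ' : FractionRing k[X] →+* L := IsFractionRing.lift hφ
  have hφ' : φ'.comp (algebraMap k[X] (FractionRing k[X])) = φ := by
    refine RingHom.ext fun x => ?_
    exact IsFractionRing.lift_algebraMap hφ x
  let _ : Algebra (FractionRing k[X]) L := φ'.toAlgebra
  have key : ∀ P : k[X][X], P.eval₂ φ y = 0 →
      aeval y (P.map (algebraMap k[X] (FractionRing k[X]))) = 0 := by
    intro P hP
    rw [aeval_def, eval₂_map]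
    show eval₂ (φ'.comp (algebraMap k[X] (FractionRing k[X]))) y P = 0
    rw [hφ']
    exact hP
  have hmin : w.map (algebraMap k[X] (FractionRing k[X])) = minpoly (FractionRing k[X]) y :=
    minpoly.eq_of_irreducible_of_monic hirr (key w hy) (hw.map _)
  have hdvd : w.map (algebraMap k[X] (FractionRing k[X]))
      ∣ U.map (algebraMap k[X] (FractionRing k[X])) :=
    hmin ▸ minpoly.dvd _ y (key U hU)
  by_contra hU0
  have hUK : U.map (algebraMap k[X] (FractionRing k[X])) ≠ 0 :=
    (Polynomial.map_ne_zero_iff (IsFractionRing.injective k[X] (FractionRing k[X]))).mpr hU0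
  have h1 := natDegree_le_of_dvd hdvd hUK
  rw [hw.natDegree_map] at h1
  have h2 := natDegree_map_le (f := algebraMap k[X] (FractionRing k[X])) (p := U)
  omega

/-- linear independence of `1, y, …, y^{n-1}` over `k[X]`. -/
theorem eq_zero_of_sum_mul_pow_eq_zero {k L : Type*} [Field k] [Field L]
    (φ : k[X] →+* L) (hφ : Function.Injective φ) (w : k[X][X]) (hw : w.Monic)
    (hirr : Irreducible (w.map (algebraMap k[X] (FractionRing k[X])))) (y : L)
    (hy : w.eval₂ φ y = 0) (n : ℕ) (hn : n = w.natDegree) (u : Fin n → k[X])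
    (hu : ∑ i, φ (u i) * y ^ (i : ℕ) = 0) : u = 0 := by
  rcases Nat.eq_zero_or_pos n with h0 | hpos
  · subst h0
    exact Subsingleton.elim _ _
  have hU : (∑ i : Fin n, C (u i) * X ^ (i : ℕ) : k[X][X]) = 0 := by
    refine eq_zero_of_eval₂_eq_zero_of_natDegree_lt φ hφ w hw hirr y hy _ ?_ ?_
    · rw [eval₂_finsetSum, ← hu]
      refine Finset.sum_congr rfl fun i _ => ?_
      rw [eval₂_mul, eval₂_C, eval₂_X_pow]
    · rw [← hn]
      by_cases hz : (∑ i : Fin n, C (u i) * X ^ (i : ℕ) : k[X][X]) = 0
      · rw [hz, natDegree_zero]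
        exact hpos
      · exact (natDegree_lt_iff_degree_lt hz).mpr (degree_sum_fin_lt u)
  funext i
  have h := congrArg (fun P : k[X][X] => P.coeff (i : ℕ)) hU
  simp only [finsetSum_coeff, coeff_C_mul, coeff_X_pow, coeff_zero] at h
  rw [Finset.sum_eq_single i] at h
  · simpa using h
  · intro j _ hj
    have : (i : ℕ) ≠ (j : ℕ) := fun h => hj (Fin.ext h.symm)
    simp [this]
  · intro h
    exact absurd (Finset.mem_univ i) h

end

end Fermat.Agent.S28
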