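import Fermat.Agent.S28.DescBasic
import Fermat.Agent.S28.DescMinpoly

set_option autoImplicit false

namespace Fermat.Agent.S28

open ModularCurve Polynomial

noncomputable section

/-- apply an additive map to the coefficients of a polynomial. -/
def mapAdd {A B : Type*} [Semiring A] [Semiring B] (g : A →+ B) : A[X] →+ B[X] where
  toFun p := p.sum fun a c => monomial a (g c)
  map_zero' := by simp
  map_add' p q := by
    rw [Polynomial.sum_add_index]
    · intro i; simp
    · intro a b c; simp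

theorem mapAdd_monomial {A B : Type*} [Semiring A] [Semiring B] (g : A →+ B) (a : ℕ) (c : A) :
    mapAdd g (monomial a c) = monomial a (g c) := by
  show (monomial a c).sum (fun a c => monomial a (g c)) = _
  rw [Polynomial.sum_monomial_index]
  simp

theorem coeff_mapAdd {A B : Type*} [Semiring A] [Semiring B] (g : A →+ B) (p : A[X]) (a : ℕ) :
    (mapAdd g p).coeff a = g (p.coeff a) := by
  induction p using Polynomial.induction_on' with
  | add p q hp hq => rw [map_add, coeff_add, coeff_add, map_add, hp, hq]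
  | monomial n c =>
    rw [mapAdd_monomial, coeff_monomial, coeff_monomial]
    split_ifs <;> simp

theorem evP_monomial {k κ : Type*} [CommRing k] [CommRing κ] [Algebra k κ]
    (x : LaurentSeries κ) (a : ℕ) (c : k) :
    evP k x (monomial a c) = HahnSeries.single 0 (algebraMap k κ c) * x ^ a := by
  show aeval x (monomial a c) = _
  rw [aeval_monomial, algebraMap_laurent_eq_single]

/-- a `ℚ`-linear retraction `ℂ → ℚ`. -/
theorem exists_rat_retraction :
    ∃ π : ℂ →+ ℚ, (∀ (r : ℚ) (c : ℂ), π ((r : ℂ) * c) = r * π c) ∧ π 1 = 1 := by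
  obtain ⟨g, hg⟩ := LinearMap.exists_leftInverse_of_injective (Algebra.linearMap ℚ ℂ)
    (LinearMap.ker_eq_bot.mpr (algebraMap ℚ ℂ).injective)
  refine ⟨g.toAddMonoidHom, fun r c => ?_, ?_⟩
  · have : (r : ℂ) * c = r • c := by
      rw [Algebra.smul_def]; rfl
    show g ((r : ℂ) * c) = r * g c
    rw [this, map_smul, smul_eq_mul]
  · have := congrArg (fun f : ℚ →ₗ[ℚ] ℚ => f 1) hg
    simpa using this

section

variable (π : ℂ →+ ℚ) (hπ : ∀ (r : ℚ) (c : ℂ), π ((r : ℂ) * c) = r * π c) (hπ1 : π 1 = 1)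

/-- `ℚ((t)) → ℂ((t))`. -/
abbrev embQC : LaurentSeries ℚ →+* LaurentSeries ℂ := coeffMap (algebraMap ℚ ℂ)

include hπ in
theorem map_pi_single_mul (c : ℂ) (z : LaurentSeries ℚ) :
    (HahnSeries.single 0 c * embQC z).map π = HahnSeries.single 0 (π c) * z := by
  ext m
  rw [HahnSeries.map_coeff, HahnSeries.coeff_single_zero_mul, HahnSeries.coeff_single_zero_mul,
    coeffMap_coeff, mul_comm c]
  show π ((z.coeff m : ℂ) * c) = _
  rw [hπ, mul_comm]

include hπ hπ1 in
theorem map_pi_embQC (z : LaurentSeries ℚ) : (embQC z).map π = z := by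
  have h := map_pi_single_mul π hπ 1 z
  rw [hπ1] at h
  have h1 : (HahnSeries.single (0 : ℤ) (1 : ℂ)) = 1 := rfl
  have h2 : (HahnSeries.single (0 : ℤ) (1 : ℚ)) = 1 := rfl
  rwa [h1, h2, one_mul, one_mul] at h

theorem map_pi_add (x y : LaurentSeries ℂ) : (x + y).map π = x.map π + y.map π := by
  ext m
  simp

include hπ in
theorem map_pi_evP_mul (x z : LaurentSeries ℚ) (p : ℂ[X]) :
    (evP ℂ (embQC x) p * embQC z).map π = evP ℚ x (mapAdd π p) * z := by
  induction p using Polynomial.induction_on' with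
  | add p q hp hq => rw [map_add, add_mul, map_pi_add, hp, hq, map_add, map_add, add_mul]
  | monomial a c =>
    have h1 : evP ℂ (embQC x) (monomial a c) = HahnSeries.single 0 c * embQC (x ^ a) := by
      rw [evP_monomial, map_pow]
      rfl
    have h2 : evP ℚ x (monomial a (π c)) = HahnSeries.single 0 (π c) * x ^ a := by
      rw [evP_monomial]
      rfl
    rw [h1, mapAdd_monomial, h2, mul_assoc, ← map_mul, map_pi_single_mul π hπ, mul_assoc]

include hπ in
/-- the functional `π` applied coefficientwise to `P(x, y)`, for rational series `x, y`. -/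
theorem map_pi_eval₂ (x y : LaurentSeries ℚ) (P : ℂ[X][X]) :
    (P.eval₂ (evP ℂ (embQC x)) (embQC y)).map π
      = (mapAdd (mapAdd π) P).eval₂ (evP ℚ x) y := by
  induction P using Polynomial.induction_on' with
  | add p q hp hq => rw [eval₂_add, map_pi_add, hp, hq, map_add, eval₂_add]
  | monomial b p =>
    rw [eval₂_monomial, mapAdd_monomial, eval₂_monomial, ← map_pow, map_pi_evP_mul π hπ]

theorem embQC_algebraMap (a : ℚ) :
    embQC (algebraMap ℚ (LaurentSeries ℚ) a) = algebraMap ℂ (LaurentSeries ℂ) (algebraMap ℚ ℂ a) :=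
  coeffMap_algebraMap' (algebraMap ℚ ℂ) (algebraMap ℚ ℂ) (fun _ => rfl) a

include hπ hπ1 in
/-- rationality of the minimal polynomial. -/
theorem eq_map_mapAdd_of_irreducible (x y : LaurentSeries ℚ)
    (hφ : Function.Injective (evP ℂ (embQC x))) (W : ℂ[X][X]) (hW : W.Monic)
    (hirr : Irreducible (W.map (algebraMap ℂ[X] (FractionRing ℂ[X]))))
    (hy : W.eval₂ (evP ℂ (embQC x)) (embQC y) = 0) :
    W = (mapAdd (mapAdd π) W).map (Polynomial.mapRingHom (algebraMap ℚ ℂ)) := by
  set W' := (mapAdd (mapAdd π) W).map (Polynomial.mapRingHom (algebraMap ℚ ℂ)) with hW'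
  have hy' : W'.eval₂ (evP ℂ (embQC x)) (embQC y) = 0 := by
    rw [hW', ← map_eval₂_evP (algebraMap ℚ ℂ) embQC embQC_algebraMap, ← map_pi_eval₂ π hπ, hy]
    have : (0 : LaurentSeries ℂ).map π = 0 := by
      ext m; simp
    rw [this, map_zero]
  have hone : mapAdd π (1 : ℂ[X]) = 1 := by
    have : (1 : ℂ[X]) = monomial 0 1 := rfl
    rw [this, mapAdd_monomial, hπ1]
    rfl
  have hcoeff : ∀ m, W.natDegree ≤ m → (W - W').coeff m = 0 := by
    intro m hm
    rw [coeff_sub, hW', coeff_map, coeff_mapAdd]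
    rcases hm.eq_or_lt with rfl | hlt
    · rw [hW.coeff_natDegree, hone]
      simp
    · rw [coeff_eq_zero_of_natDegree_lt hlt]
      simp
  have hU : W - W' = 0 := by
    by_contra h0
    refine h0 (eq_zero_of_eval₂_eq_zero_of_natDegree_lt _ hφ W hW hirr _ hy _ ?_ ?_)
    · rw [eval₂_sub, hy, hy', sub_zero]
    · exact (natDegree_lt_iff_degree_lt h0).mpr ((degree_lt_iff_coeff_zero _ _).mpr hcoeff)
  exact sub_eq_zero.mp hU

end

end

end Fermat.Agent.S28
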