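import Fermat.Agent.S28.AnalyticData
import Fermat.Agent.S28.NP
import Fermat.Agent.S28.DescPi

set_option autoImplicit false

namespace Fermat.Agent.S28

open ModularCurve Polynomial

noncomputable section

theorem evP_injective_of_pole {k κ : Type*} [Field k] [Field κ] [Algebra k κ]
    (J : LaurentSeries κ) (hJ : J.order < 0) : Function.Injective (evP k J) := by
  rw [injective_iff_map_eq_zero]
  intro p hp
  by_contra h0
  obtain ⟨m, -, hm⟩ := exists_coeff_ne_zero_of_pole J hJ p h0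
  rw [hp] at hm
  exact hm rfl

namespace AnalyticData

variable {N : ℕ} [NeZero N] (D : AnalyticData N)

theorem order_JC : (JC N).order < 0 := order_qExpand_jqModC_neg ℂ N

theorem hJC (p : ℂ[X]) (hp : p ≠ 0) : ∃ m : ℤ, m ≤ 0 ∧ (evP ℂ (JC N) p).coeff m ≠ 0 :=
  exists_coeff_ne_zero_of_pole (JC N) order_JC p hp

theorem evP_JC_injective : Function.Injective (evP ℂ (JC N)) :=
  evP_injective_of_pole (JC N) order_JC

theorem hvs : ∀ v ∈ D.Vs, v ≠ 0 ∧ ∀ m : ℤ, m ≤ 0 → v.coeff m = 0 := by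
  intro v hv
  refine ⟨?_, D.hpos v hv⟩
  obtain ⟨m, hm, -⟩ := D.hunit ⊤ (Subring.mem_top _) (fun _ _ => Subring.mem_top _) v hv
  rintro rfl
  exact hm rfl

theorem prod_monic : (D.Vs.map fun v => (X - C v : (LaurentSeries ℂ)[X])).prod.Monic :=
  monic_multiset_prod_of_monic _ _ fun v _ => monic_X_sub_C v

theorem W_monic : D.W.Monic := by
  apply Polynomial.monic_of_injective (evP_JC_injective (N := N))
  rw [D.hW]
  exact (monic_X_sub_C _).mul D.prod_monic

theorem W_irreducible : Irreducible (D.W.map (algebraMap ℂ[X] (FractionRing ℂ[X]))) :=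
  irreducible_of_roots (JC N) hJC D.W D.W_monic (iotaC N D.V) D.Vs D.hvs D.hW

theorem W_root : D.W.eval₂ (evP ℂ (JC N)) (iotaC N D.V) = 0 := by
  rw [Polynomial.eval₂_eq_eval_map, D.hW]
  simp

theorem W_natDegree : D.W.natDegree = Multiset.card D.Vs + 1 := by
  have h := congrArg natDegree D.hW
  rw [D.W_monic.natDegree_map, (monic_X_sub_C _).natDegree_mul D.prod_monic, natDegree_X_sub_C,
    natDegree_multiset_prod_of_monic _ (by
      intro f hf
      obtain ⟨v, _, rfl⟩ := Multiset.mem_map.mp hf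
      exact monic_X_sub_C v)] at h
  rw [h, Multiset.map_map]
  simp [add_comm]

theorem derivative_eval : (derivative D.W).eval₂ (evP ℂ (JC N)) (iotaC N D.V)
    = (D.Vs.map fun v => iotaC N D.V - v).prod := by
  rw [Polynomial.eval₂_eq_eval_map, ← Polynomial.derivative_map, D.hW, derivative_mul]
  simp only [derivative_sub, derivative_X, derivative_C, sub_zero, one_mul, eval_add, eval_mul,
    eval_sub, eval_X, eval_C, sub_self, zero_mul, add_zero]
  rw [Polynomial.eval_multiset_prod, Multiset.map_map]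
  congr 1
  refine Multiset.map_congr rfl fun v _ => ?_
  simp

theorem prod_ne_zero : (D.Vs.map fun v => iotaC N D.V - v).prod ≠ 0 := by
  apply Multiset.prod_ne_zero
  intro h
  obtain ⟨v, hv, hv0⟩ := Multiset.mem_map.mp h
  have : iotaC N D.V = v := sub_eq_zero.mp hv0
  exact not_mem_of_roots (JC N) hJC D.W (iotaC N D.V) D.Vs D.hvs D.hW (this ▸ hv)

end AnalyticData

/-- `ℚ((q)) → ℂ((t))`. -/
def thetaQC (N : ℕ) [NeZero N] : LaurentSeries ℚ →+* LaurentSeries ℂ :=
  embQC.comp (qExpand ℚ N)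

theorem thetaQC_injective (N : ℕ) [NeZero N] : Function.Injective (thetaQC N) :=
  (coeffMap_injective _ (algebraMap ℚ ℂ).injective).comp (qExpand_injective N)

theorem thetaQC_algebraMap (N : ℕ) [NeZero N] (a : ℚ) :
    thetaQC N (algebraMap ℚ (LaurentSeries ℚ) a)
      = algebraMap ℂ (LaurentSeries ℂ) (algebraMap ℚ ℂ a) := by
  show embQC (qExpand ℚ N _) = _
  rw [qExpand_algebraMap, embQC_algebraMap]

theorem embQC_qExpand_jq (N : ℕ) [NeZero N] : embQC (qExpand ℚ N jq) = JC N := by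
  rw [coeffMap_qExpand, ← jqModC_rat, coeffMap_jqModC]
  rfl

theorem thetaQC_jq (N : ℕ) [NeZero N] : thetaQC N jq = JC N := embQC_qExpand_jq N

theorem embQC_qExpand_intCast (N : ℕ) [NeZero N] (V : LaurentSeries ℤ) :
    embQC (qExpand ℚ N (coeffMap (Int.castRingHom ℚ) V)) = iotaC N V := by
  rw [coeffMap_qExpand, coeffMap_coeffMap]
  show _ = qExpand ℂ N (coeffMap (Int.castRingHom ℂ) V)
  rw [coeffMap_congr (RingHom.ext_int _ (Int.castRingHom ℂ))]

theorem thetaQC_intCast (N : ℕ) [NeZero N] (V : LaurentSeries ℤ) :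
    thetaQC N (coeffMap (Int.castRingHom ℚ) V) = iotaC N V := embQC_qExpand_intCast N V

theorem thetaQC_qExpand_jq (N d : ℕ) [NeZero N] [NeZero d] :
    thetaQC N (qExpand ℚ d jq) = qExpand ℂ N (qExpand ℂ d (jqModC ℂ)) := by
  show embQC (qExpand ℚ N (qExpand ℚ d jq)) = _
  rw [coeffMap_qExpand, coeffMap_qExpand, ← jqModC_rat, coeffMap_jqModC]

/-- the rational model of the analytic data. -/
theorem exists_rational_model {N : ℕ} [NeZero N] (D : AnalyticData N) :
    ∃ W₀ : ℚ[X][X], D.W = W₀.map (Polynomial.mapRingHom (algebraMap ℚ ℂ)) ∧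
      W₀.Monic ∧ W₀.eval₂ (evP ℚ jq) (coeffMap (Int.castRingHom ℚ) D.V) = 0 ∧
      (derivative W₀).eval₂ (evP ℚ jq) (coeffMap (Int.castRingHom ℚ) D.V) ≠ 0 ∧
      ∀ (d : ℕ) [NeZero d], d ∣ N → ∃ G₀ : ℚ[X][X],
        G₀.eval₂ (evP ℚ jq) (coeffMap (Int.castRingHom ℚ) D.V)
          = qExpand ℚ d jq * (derivative W₀).eval₂ (evP ℚ jq) (coeffMap (Int.castRingHom ℚ) D.V) := by
  obtain ⟨π, hπ, hπ1⟩ := exists_rat_retraction
  set VQ := coeffMap (Int.castRingHom ℚ) D.V with hVQ
  have hx : embQC (qExpand ℚ N jq) = JC N := embQC_qExpand_jq N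
  have hy : embQC (qExpand ℚ N VQ) = iotaC N D.V := embQC_qExpand_intCast N D.V
  have hW : D.W = (mapAdd (mapAdd π) D.W).map (Polynomial.mapRingHom (algebraMap ℚ ℂ)) := by
    apply eq_map_mapAdd_of_irreducible π hπ hπ1 (qExpand ℚ N jq) (qExpand ℚ N VQ)
    · rw [hx]; exact AnalyticData.evP_JC_injective
    · exact D.W_monic
    · exact D.W_irreducible
    · rw [hx, hy]; exact D.W_root
  set W₀ := mapAdd (mapAdd π) D.W with hW₀
  have hinj : Function.Injective (Polynomial.mapRingHom (algebraMap ℚ ℂ)) :=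
    Polynomial.map_injective _ (algebraMap ℚ ℂ).injective
  have key : ∀ P : ℚ[X][X], thetaQC N (P.eval₂ (evP ℚ jq) VQ)
      = (P.map (Polynomial.mapRingHom (algebraMap ℚ ℂ))).eval₂ (evP ℂ (JC N)) (iotaC N D.V) := by
    intro P
    rw [map_eval₂_evP (algebraMap ℚ ℂ) (thetaQC N) (thetaQC_algebraMap N), thetaQC_jq,
      thetaQC_intCast]
  have hder : thetaQC N ((derivative W₀).eval₂ (evP ℚ jq) VQ)
      = (D.Vs.map fun v => iotaC N D.V - v).prod := by
    rw [key, ← Polynomial.derivative_map, ← hW, D.derivative_eval]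
  refine ⟨W₀, hW, ?_, ?_, ?_, ?_⟩
  · apply Polynomial.monic_of_injective hinj
    rw [← hW]
    exact D.W_monic
  · apply thetaQC_injective N
    rw [key, ← hW, D.W_root, map_zero]
  · intro h
    rw [h, map_zero] at hder
    exact D.prod_ne_zero hder.symm
  · intro d _ hd
    refine ⟨mapAdd (mapAdd π) (D.G d), ?_⟩
    apply qExpand_injective N
    have h1 := map_pi_eval₂ π hπ (qExpand ℚ N jq) (qExpand ℚ N VQ) (D.G d)
    rw [hx, hy, D.hG d hd, ← hder, ← thetaQC_qExpand_jq, ← map_mul] at h1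
    have h2 : (thetaQC N (qExpand ℚ d jq * (derivative W₀).eval₂ (evP ℚ jq) VQ)).map π
        = qExpand ℚ N (qExpand ℚ d jq * (derivative W₀).eval₂ (evP ℚ jq) VQ) :=
      map_pi_embQC π hπ hπ1 _
    rw [h2] at h1
    rw [h1, map_eval₂_evP (RingHom.id ℚ) (qExpand ℚ N) (fun a => qExpand_algebraMap N a)]
    congr 1
    simp

end

end Fermat.Agent.S28
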