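import Fermat.Agent.S28.DescBasic

set_option autoImplicit false

namespace Fermat.Agent.S28

open ModularCurve Polynomial

noncomputable section

/-- coefficients of a polynomial expression in a Laurent series. -/
theorem coeff_evP {k κ : Type*} [CommRing k] [CommRing κ] [Algebra k κ] (x : LaurentSeries κ)
    (p : k[X]) (m : ℤ) :
    (evP k x p).coeff m
      = ∑ a ∈ Finset.range (p.natDegree + 1), algebraMap k κ (p.coeff a) * (x ^ a).coeff m := by
  have h : evP k x p = ∑ a ∈ Finset.range (p.natDegree + 1),
      algebraMap k (LaurentSeries κ) (p.coeff a) * x ^ a := by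
    have := Polynomial.aeval_eq_sum_range (R := k) (p := p) x
    simp only [Algebra.smul_def] at this
    exact this
  rw [h, HahnSeries.coeff_sum]
  refine Finset.sum_congr rfl fun a _ => ?_
  rw [algebraMap_laurent_eq_single, HahnSeries.coeff_single_zero_mul]

/-- the lowest coefficient of `p(j)` is the leading coefficient of `p`. -/
theorem coeff_evP_jqModC_natDegree (A : Type*) [CommRing A] (p : A[X]) :
    (evP A (jqModC A) p).coeff (-(p.natDegree : ℤ)) = p.leadingCoeff := by
  rw [coeff_evP, Finset.sum_range_succ, coeff_jqModC_pow_self, mul_one, Finset.sum_eq_zero,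
    zero_add]
  · rfl
  · intro a ha
    have ha' : a < p.natDegree := Finset.mem_range.mp ha
    rw [coeff_jqModC_pow_of_lt A (by omega), mul_zero]

/-- the coefficients of powers of `j` are integers. -/
theorem coeff_jqModC_pow_mem {A : Type*} [CommRing A] (O : Subring A) (n : ℕ) (m : ℤ) :
    ((jqModC A) ^ n).coeff m ∈ O := by
  rw [← coeffMap_jqModC (Int.castRingHom A), ← map_pow, coeffMap_coeff]
  exact intCast_mem O _

/-- peeling: if `p(j)` has all its coefficients in the subring `O`, so has `p`. -/
theorem coeff_mem_of_evP_jqModC {A : Type*} [CommRing A] (O : Subring A) :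
    ∀ (n : ℕ) (p : A[X]), p.natDegree = n → (∀ m, (evP A (jqModC A) p).coeff m ∈ O) →
      ∀ a, p.coeff a ∈ O := by
  intro n
  induction n using Nat.strong_induction_on with
  | _ n ih =>
    intro p hn hp
    have hlead : p.leadingCoeff ∈ O := by
      rw [← coeff_evP_jqModC_natDegree]
      exact hp _
    have hdecomp : evP A (jqModC A) p
        = evP A (jqModC A) p.eraseLead
          + HahnSeries.single 0 p.leadingCoeff * (jqModC A) ^ n := by
      conv_lhs => rw [← eraseLead_add_C_mul_X_pow p]
      rw [map_add, hn]
      congr 1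
      simp [evP, algebraMap_laurent_eq_single]
    have herase : ∀ m, (evP A (jqModC A) p.eraseLead).coeff m ∈ O := by
      intro m
      have : evP A (jqModC A) p.eraseLead
          = evP A (jqModC A) p - HahnSeries.single 0 p.leadingCoeff * (jqModC A) ^ n := by
        rw [hdecomp]; ring
      rw [this, HahnSeries.coeff_sub, HahnSeries.coeff_single_zero_mul]
      exact sub_mem (hp m) (mul_mem hlead (coeff_jqModC_pow_mem O n m))
    have hE : ∀ a, p.eraseLead.coeff a ∈ O := by
      rcases eraseLead_natDegree_lt_or_eraseLead_eq_zero p with hlt | h0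
      · exact ih _ (hn ▸ hlt) _ rfl herase
      · intro a
        rw [h0, coeff_zero]
        exact zero_mem O
    intro a
    by_cases ha : a = p.natDegree
    · rw [ha]
      exact hlead
    · rw [← eraseLead_coeff_of_ne a ha]
      exact hE a

/-- peeling for `j(t^N)`. -/
theorem coeff_mem_of_evP_qExpand_jqModC {A : Type*} [CommRing A] (O : Subring A) (N : ℕ)
    [NeZero N] (p : A[X]) (hp : ∀ m, (evP A (qExpand A N (jqModC A)) p).coeff m ∈ O) (a : ℕ) :
    p.coeff a ∈ O := by
  refine coeff_mem_of_evP_jqModC O _ p rfl (fun m => ?_) a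
  have h := map_evP (RingHom.id A) (qExpand A N) (fun a => qExpand_algebraMap N a) (jqModC A) p
  rw [Polynomial.map_id] at h
  rw [← qExpand_coeff_mul N, h]
  exact hp _

end

end Fermat.Agent.S28
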