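import Fermat.Agent.S28.Defs

set_option autoImplicit false

namespace Fermat.Agent.S28

open ModularCurve Polynomial

noncomputable section

/-- Chevalley: there is a valuation subring of `ℂ` in which `ℓ` is not invertible. -/
theorem exists_valuationSubring_inv_not_mem (ℓ : ℕ) [Fact ℓ.Prime] :
    ∃ O : ValuationSubring ℂ, ((ℓ : ℂ))⁻¹ ∉ O := by
  have hℓ : ℓ.Prime := Fact.out
  let A : Subring ℂ := (Int.castRingHom ℂ).range
  let l : A := ⟨(ℓ : ℂ), ⟨(ℓ : ℤ), by simp⟩⟩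
  have hI : Ideal.span {l} ≠ ⊤ := by
    intro h
    rw [Ideal.span_singleton_eq_top] at h
    obtain ⟨⟨b, m, hm⟩, hb⟩ := isUnit_iff_exists_inv.mp h
    have h1 : (ℓ : ℂ) * b = 1 := congrArg Subtype.val hb
    rw [← hm] at h1
    have h2 : (ℓ : ℤ) * m = 1 := by
      have : (((ℓ : ℤ) * m : ℤ) : ℂ) = ((1 : ℤ) : ℂ) := by
        push_cast
        simpa using h1
      exact_mod_cast this
    have h3 : (ℓ : ℤ) ∣ 1 := ⟨m, h2.symm⟩
    have h4 : ℓ ∣ 1 := by exact_mod_cast h3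
    exact hℓ.one_lt.ne' (Nat.dvd_one.mp h4)
  obtain ⟨B, -, hB⟩ := Ideal.image_subset_nonunits_valuationSubring _ hI
  refine ⟨B, ?_⟩
  have hmem : (ℓ : ℂ) ∈ B.nonunits := hB ⟨l, Ideal.subset_span rfl, rfl⟩
  rcases (B.mem_nonunits_iff_or).mp hmem with h | h
  · exact absurd h (Nat.cast_ne_zero.mpr hℓ.ne_zero)
  · exact h

variable {ℓ : ℕ} [Fact ℓ.Prime] (O : ValuationSubring ℂ) (hO : ((ℓ : ℂ))⁻¹ ∉ O)

include hO in
/-- integers prime to `ℓ` are invertible in `O`. -/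
theorem natCast_inv_mem_of_not_dvd (n : ℕ) (hn : ¬ ℓ ∣ n) : ((n : ℂ))⁻¹ ∈ O := by
  have hℓ : ℓ.Prime := Fact.out
  have hcop : IsCoprime (n : ℤ) (ℓ : ℤ) :=
    Nat.isCoprime_iff_coprime.mpr ((Nat.Prime.coprime_iff_not_dvd hℓ).mpr hn).symm
  obtain ⟨a, b, hab⟩ := hcop
  have hab' : (a : ℂ) * n + b * ℓ = 1 := by exact_mod_cast hab
  have hn0 : (n : ℂ) ≠ 0 := by
    rintro h
    have : n = 0 := by exact_mod_cast h
    exact hn (this ▸ dvd_zero _)
  have hℓ0 : (ℓ : ℂ) ≠ 0 := Nat.cast_ne_zero.mpr hℓ.ne_zero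
  rcases O.mem_or_inv_mem ((ℓ : ℂ) / n) with h | h
  · have : ((n : ℂ))⁻¹ = a + b * ((ℓ : ℂ) / n) := by
      field_simp
      linear_combination -hab'
    rw [this]
    exact add_mem (intCast_mem O a) (mul_mem (intCast_mem O b) h)
  · exfalso
    apply hO
    have : ((ℓ : ℂ))⁻¹ = a * ((ℓ : ℂ) / n)⁻¹ + b := by
      field_simp
      linear_combination -hab'
    rw [this]
    exact add_mem (mul_mem (intCast_mem O a) h) (intCast_mem O b)

omit [Fact ℓ.Prime] in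
/-- roots of unity lie in every valuation subring. -/
theorem mem_of_pow_eq_one (N : ℕ) [NeZero N] (ζ : ℂ) (hζ : ζ ^ N = 1) : ζ ∈ O := by
  rcases O.mem_or_inv_mem ζ with h | h
  · exact h
  · obtain ⟨M, hM⟩ : ∃ M, N = M + 1 := Nat.exists_eq_succ_of_ne_zero (NeZero.ne N)
    have hζ0 : ζ ≠ 0 := by
      rintro rfl
      rw [zero_pow (NeZero.ne N)] at hζ
      exact zero_ne_one hζ
    have : ζ = (ζ⁻¹) ^ M := by
      rw [hM, pow_succ] at hζ
      rw [inv_pow]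
      exact eq_inv_of_mul_eq_one_right hζ
    rw [this]
    exact pow_mem h M

include hO in
theorem ratCast_mem_of_mem_Rl (x : ℚ) (hx : x ∈ GaloisRep.ratLocalizedAt ℓ) : (x : ℂ) ∈ O := by
  have hℓ : ℓ.Prime := Fact.out
  have hden : ¬ ℓ ∣ x.den := by
    intro h
    have h1 : x.den.Coprime ℓ := hx
    have h2 : ℓ ∣ Nat.gcd x.den ℓ := Nat.dvd_gcd h dvd_rfl
    rw [h1] at h2
    exact hℓ.one_lt.ne' (Nat.dvd_one.mp h2)
  rw [Rat.cast_def, div_eq_mul_inv]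
  exact mul_mem (intCast_mem O _) (natCast_inv_mem_of_not_dvd O hO _ hden)

include hO in
theorem mem_Rl_of_ratCast_mem (x : ℚ) (hx : (x : ℂ) ∈ O) : x ∈ GaloisRep.ratLocalizedAt ℓ := by
  have hℓ : ℓ.Prime := Fact.out
  show x.den.Coprime ℓ
  rw [Nat.coprime_comm, Nat.Prime.coprime_iff_not_dvd hℓ]
  rintro ⟨b, hb⟩
  have hnum : ¬ (ℓ : ℤ) ∣ x.num := by
    intro h
    have h1 : ℓ ∣ x.num.natAbs := Int.natCast_dvd.mp h
    have h2 : ℓ ∣ Nat.gcd x.num.natAbs x.den := Nat.dvd_gcd h1 ⟨b, hb⟩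
    rw [x.reduced] at h2
    exact hℓ.one_lt.ne' (Nat.dvd_one.mp h2)
  have hcop : IsCoprime x.num (ℓ : ℤ) :=
    ((Nat.prime_iff_prime_int.mp hℓ).coprime_iff_not_dvd.mpr hnum).symm
  obtain ⟨u, v, huv⟩ := hcop
  have huv' : (u : ℂ) * x.num + v * ℓ = 1 := by exact_mod_cast huv
  have hℓ0 : (ℓ : ℂ) ≠ 0 := Nat.cast_ne_zero.mpr hℓ.ne_zero
  have hb0 : (b : ℂ) ≠ 0 := by
    intro h
    have : b = 0 := by exact_mod_cast h
    rw [this, mul_zero] at hb
    exact x.den_nz hb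
  apply hO
  have hx' : (x : ℂ) = x.num / ((ℓ : ℂ) * b) := by
    rw [Rat.cast_def, hb]
    push_cast
    rfl
  have : ((ℓ : ℂ))⁻¹ = u * ((x : ℂ) * b) + v := by
    rw [hx']
    field_simp
    linear_combination -huv'
  rw [this]
  exact add_mem (mul_mem (intCast_mem O u) (mul_mem hx (natCast_mem O b))) (intCast_mem O v)

include hO in
/-- the residue field of `O` has characteristic `ℓ`. -/
theorem charP_residueField : CharP (IsLocalRing.ResidueField O) ℓ := by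
  have hℓ : ℓ.Prime := Fact.out
  have h0 : ((ℓ : ℕ) : IsLocalRing.ResidueField O) = 0 := by
    have h1 : ((ℓ : ℕ) : O) ∈ IsLocalRing.maximalIdeal O := by
      rw [← ValuationSubring.coe_mem_nonunits_iff, ValuationSubring.mem_nonunits_iff_or]
      right
      simpa using hO
    have h2 := (IsLocalRing.residue_eq_zero_iff _).mpr h1
    simpa using h2
  exact (CharP.charP_iff_prime_eq_zero hℓ).mpr h0

/-- ring homs out of `ℤ_(ℓ)` are unique. -/
theorem ringHom_Rl_ext' (ℓ : ℕ) {S : Type*} [CommRing S] (f g : Rl ℓ →+* S) : f = g := by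
  refine RingHom.ext fun x => ?_
  have hden : (((x : ℚ).den : ℚ))⁻¹ ∈ GaloisRep.ratLocalizedAt ℓ := by
    show ((((x : ℚ).den : ℚ))⁻¹).den.Coprime ℓ
    have h3 : (((x : ℚ).den : ℚ)⁻¹).den = (x : ℚ).den := by
      rw [Rat.inv_natCast_den]
      simp [(x : ℚ).den_nz]
    rw [h3]
    exact x.2
  have hd0 : (((x : ℚ).den : ℚ)) ≠ 0 := Nat.cast_ne_zero.mpr (x : ℚ).den_nz
  have hunit : IsUnit (((x : ℚ).den : ℕ) : Rl ℓ) := by
    refine isUnit_iff_exists_inv.mpr ⟨⟨_, hden⟩, Subtype.ext ?_⟩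
    push_cast
    exact mul_inv_cancel₀ hd0
  have hx : x * (((x : ℚ).den : ℕ) : Rl ℓ) = (((x : ℚ).num : ℤ) : Rl ℓ) := by
    apply Subtype.ext
    push_cast
    exact Rat.mul_den_eq_num _
  have hf := congrArg f hx
  have hg := congrArg g hx
  rw [map_mul, map_natCast, map_intCast] at hf hg
  have hu : IsUnit ((((x : ℚ).den : ℕ)) : S) := by
    have := hunit.map f
    rwa [map_natCast] at this
  exact hu.mul_right_cancel (hf.trans hg.symm)

/-- the package of arithmetic data used in the descent: a subring `O ⊆ ℂ` containing `1/N` and the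
`N`-th roots of unity, meeting `ℚ` in `ℤ_(ℓ)`, together with a ring hom to a field of
characteristic `ℓ`. -/
theorem exists_good_subring (ℓ : ℕ) [Fact ℓ.Prime] (N : ℕ) [NeZero N] (hℓN : ¬ ℓ ∣ N) :
    ∃ (O : Subring ℂ) (κ : Type) (_ : Field κ) (_ : CharP κ ℓ) (_ : O →+* κ),
      ((N : ℂ))⁻¹ ∈ O ∧ (∀ ζ : ℂ, ζ ^ N = 1 → ζ ∈ O) ∧
      (∀ x : ℚ, (x : ℂ) ∈ O ↔ x ∈ GaloisRep.ratLocalizedAt ℓ) := by
  obtain ⟨O, hO⟩ := exists_valuationSubring_inv_not_mem ℓ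
  refine ⟨O.toSubring, IsLocalRing.ResidueField O, inferInstance, charP_residueField O hO,
    IsLocalRing.residue O, natCast_inv_mem_of_not_dvd O hO N hℓN,
    fun ζ hζ => mem_of_pow_eq_one O N ζ hζ,
    fun x => ⟨mem_Rl_of_ratCast_mem O hO x, ratCast_mem_of_mem_Rl O hO x⟩⟩

end

end Fermat.Agent.S28
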