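import Fermat.Statements.S28

set_option autoImplicit false
open ModularCurve ModularCurve.IgusaScheme

noncomputable section

namespace Fermat.Agent.S28

/-- `ℤ_(ℓ)` (as a subring of `ℚ`) is a principal ideal ring. -/
instance isPrincipalIdealRing_ratLocalizedAt (ℓ : ℕ) :
    IsPrincipalIdealRing ↥(GaloisRep.ratLocalizedAt ℓ) := by
  refine ⟨fun I => ?_⟩
  obtain ⟨m, hm⟩ := (IsPrincipalIdealRing.principal
    (I.comap (Int.castRingHom ↥(GaloisRep.ratLocalizedAt ℓ)))).principal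
  refine ⟨⟨((m : ℤ) : ↥(GaloisRep.ratLocalizedAt ℓ)), ?_⟩⟩
  have hmI : ((m : ℤ) : ↥(GaloisRep.ratLocalizedAt ℓ)) ∈ I := by
    have : m ∈ I.comap (Int.castRingHom ↥(GaloisRep.ratLocalizedAt ℓ)) := by
      rw [hm]; exact Submodule.mem_span_singleton_self m
    simpa using this
  apply le_antisymm
  · intro x hx
    have hden : ((x : ℚ).den : ℚ)⁻¹ ∈ GaloisRep.ratLocalizedAt ℓ := by
      show (((x : ℚ).den : ℚ)⁻¹).den.Coprime ℓ
      have h1 : (((x : ℚ).den : ℚ)⁻¹).den = (x : ℚ).den := by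
        rw [Rat.inv_natCast_den]
        simp [(x : ℚ).den_nz]
      rw [h1]
      exact x.2
    have hnum : (((x : ℚ).num : ℤ) : ↥(GaloisRep.ratLocalizedAt ℓ)) ∈ I := by
      have : (((x : ℚ).num : ℤ) : ↥(GaloisRep.ratLocalizedAt ℓ)) =
          (((x : ℚ).den : ℕ) : ↥(GaloisRep.ratLocalizedAt ℓ)) * x := by
        apply Subtype.ext
        push_cast
        rw [mul_comm]
        exact (Rat.mul_den_eq_num (x : ℚ)).symm
      rw [this]
      exact I.mul_mem_left _ hx
    have hnum' : (x : ℚ).num ∈ I.comap (Int.castRingHom ↥(GaloisRep.ratLocalizedAt ℓ)) := by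
      simpa using hnum
    rw [hm] at hnum'
    obtain ⟨c, hc⟩ := Submodule.mem_span_singleton.mp hnum'
    rw [Submodule.mem_span_singleton]
    refine ⟨⟨((x : ℚ).den : ℚ)⁻¹, hden⟩ * ((c : ℤ) : ↥(GaloisRep.ratLocalizedAt ℓ)), ?_⟩
    apply Subtype.ext
    have hx' : (x : ℚ) = (x : ℚ).num / (x : ℚ).den := (Rat.num_div_den (x : ℚ)).symm
    rw [smul_eq_mul] at hc ⊢
    push_cast
    conv_rhs => rw [hx', ← hc]
    push_cast
    field_simp
  · rw [Submodule.span_le]
    simpa using hmI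

instance isIntegrallyClosed_laurentSeries (R : Type*) [CommRing R] [IsDomain R]
    [IsPrincipalIdealRing R] : IsIntegrallyClosed (LaurentSeries R) :=
  isIntegrallyClosed_of_isLocalization (R := PowerSeries R) _
    (Submonoid.powers (PowerSeries.X : PowerSeries R))
    (Submonoid.powers_le.mpr (mem_nonZeroDivisors_of_ne_zero PowerSeries.X_ne_zero))

section General

variable {B L : Type*} [CommRing B] [IsDomain B] [Field L] (ι : B →+* L)
  (hι : Function.Injective ι)

/-- The subfield of `L` generated by the image of the domain `B`. -/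
def fracRange : Subfield L :=
  (IsFractionRing.lift (K := FractionRing B) hι).fieldRange

theorem range_le_fracRange (b : B) : ι b ∈ fracRange ι hι :=
  ⟨algebraMap B (FractionRing B) b, IsFractionRing.lift_algebraMap hι b⟩

theorem mem_range_of_isIntegralElem [IsIntegrallyClosed B] {x : L}
    (hx : x ∈ fracRange ι hι) (hint : ι.IsIntegralElem x) : x ∈ ι.range := by
  obtain ⟨y, rfl⟩ := hx
  have hy : IsIntegral B y := by
    obtain ⟨p, hp, hp0⟩ := hint
    refine ⟨p, hp, ?_⟩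
    apply (IsFractionRing.lift (K := FractionRing B) hι).injective
    rw [map_zero, Polynomial.hom_eval₂]
    have : (IsFractionRing.lift (K := FractionRing B) hι).comp (algebraMap B (FractionRing B)) = ι :=
      RingHom.ext fun b => IsFractionRing.lift_algebraMap hι b
    rw [this]
    exact hp0
  obtain ⟨z, rfl⟩ := IsIntegrallyClosed.isIntegral_iff.mp hy
  exact ⟨z, (IsFractionRing.lift_algebraMap hι z).symm⟩

include hι in
theorem rangeRestrict_bijective : Function.Bijective ι.rangeRestrict :=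
  ⟨fun a b h => hι (congrArg Subtype.val h), ι.rangeRestrict_surjective⟩

/-- Lift a ring hom landing in the range of an injective ring hom. -/
def liftOfRange {C : Type*} [CommRing C] (j : C →+* L) (h : ∀ c, j c ∈ ι.range) : C →+* B :=
  ((RingEquiv.ofBijective ι.rangeRestrict (rangeRestrict_bijective ι hι)).symm :
      ι.range →+* B).comp (j.codRestrict ι.range h)

theorem apply_liftOfRange {C : Type*} [CommRing C] (j : C →+* L) (h : ∀ c, j c ∈ ι.range)
    (c : C) : ι (liftOfRange ι hι j h c) = j c := by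
  have := (RingEquiv.ofBijective ι.rangeRestrict
    (rangeRestrict_bijective ι hι)).apply_symm_apply (j.codRestrict ι.range h c)
  exact congrArg Subtype.val this

end General

section Igusa

variable (ℓ : ℕ)

/-- Coefficientwise inclusion `ℤ_(ℓ)((q)) → ℚ((q))`. -/
abbrev incl : LaurentSeries ↥(GaloisRep.ratLocalizedAt ℓ) →+* LaurentSeries ℚ :=
  coeffMap (GaloisRep.ratLocalizedAt ℓ).subtype

theorem incl_injective : Function.Injective (incl ℓ) := by
  intro a b h
  ext k
  have := congrArg (fun x => HahnSeries.coeff x k) h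
  simpa using this

theorem mem_range_incl_iff {x : LaurentSeries ℚ} :
    x ∈ (incl ℓ).range ↔ ∀ k, x.coeff k ∈ GaloisRep.ratLocalizedAt ℓ := by
  constructor
  · rintro ⟨y, rfl⟩ k
    exact (y.coeff k).2
  · intro h
    refine ⟨⟨fun k => ⟨x.coeff k, h k⟩, ?_⟩, ?_⟩
    · refine x.isPWO_support.mono ?_
      intro k hk
      simp only [Function.mem_support, ne_eq] at hk ⊢
      intro h0
      exact hk (Subtype.ext h0)
    · ext k
      rfl

theorem qExpand_jq_mem_range (d : ℕ) [NeZero d] : qExpand ℚ d jq ∈ (incl ℓ).range :=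
  ⟨qExpand _ d (jqModC _), by
    rw [coeffMap_qExpand, coeffMap_jqModC, jqModC_rat]⟩

variable (N : ℕ) [NeZero N]

theorem full_le_fracRange {x : LaurentSeries ℚ} (hx : x ∈ modularFunctionFieldFull N) :
    x ∈ fracRange (incl ℓ) (incl_injective ℓ) := by
  have : modularFunctionFieldFull N ≤
      (fracRange (incl ℓ) (incl_injective ℓ)).toIntermediateField (fun r => by
        rw [eq_ratCast]; exact SubfieldClass.ratCast_mem _ r) := by
    rw [modularFunctionFieldFull, IntermediateField.adjoin_le_iff]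
    rintro y ⟨d, hd, -, rfl⟩
    obtain ⟨z, hz⟩ := qExpand_jq_mem_range ℓ d
    rw [← hz]
    exact range_le_fracRange _ _ z
  exact this hx

variable [Fact ℓ.Prime]

theorem algebraMap_mem_range (a : ↥(GaloisRep.ratLocalizedAt ℓ)) :
    ((algebraMap ↥(GaloisRep.ratLocalizedAt ℓ) ↥(modularFunctionFieldFull N) a :
      ↥(modularFunctionFieldFull N)) : LaurentSeries ℚ) ∈ (incl ℓ).range := by
  have h : ((algebraMap ↥(GaloisRep.ratLocalizedAt ℓ) ↥(modularFunctionFieldFull N) a :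
      ↥(modularFunctionFieldFull N)) : LaurentSeries ℚ) = HahnSeries.single 0 (a : ℚ) := by
    rw [← algebraMap_apply_eq_single,
      IsScalarTower.algebraMap_apply ↥(GaloisRep.ratLocalizedAt ℓ) ℚ ↥(modularFunctionFieldFull N),
      eq_ratCast, eq_ratCast]
    rfl
  rw [h]
  exact ⟨HahnSeries.single 0 a, by simp⟩

theorem adjoin_coe_mem_range (S : Set ↥(modularFunctionFieldFull N))
    (hS : ∀ s ∈ S, (s : LaurentSeries ℚ) ∈ (incl ℓ).range)
    {c : ↥(modularFunctionFieldFull N)}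
    (hc : c ∈ Algebra.adjoin ↥(GaloisRep.ratLocalizedAt ℓ) S) :
    (c : LaurentSeries ℚ) ∈ (incl ℓ).range := by
  induction hc using Algebra.adjoin_induction with
  | mem y hy => exact hS y hy
  | algebraMap a => exact algebraMap_mem_range ℓ N a
  | add y z _ _ hy hz => exact add_mem hy hz
  | mul y z _ _ hy hz => exact mul_mem hy hz

theorem chartAlg_coe_mem_range (S : Set ↥(modularFunctionFieldFull N))
    (hS : ∀ s ∈ S, (s : LaurentSeries ℚ) ∈ (incl ℓ).range)
    {x : ↥(modularFunctionFieldFull N)} (hx : x ∈ chartAlg N ℓ S) :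
    (x : LaurentSeries ℚ) ∈ (incl ℓ).range := by
  obtain ⟨p, hmonic, hroot⟩ := (mem_chartAlg_iff N ℓ).mp hx
  refine mem_range_of_isIntegralElem (incl ℓ) (incl_injective ℓ)
    (full_le_fracRange ℓ N x.2) ?_
  let j : ↥(Algebra.adjoin ↥(GaloisRep.ratLocalizedAt ℓ) S) →+* LaurentSeries ℚ :=
    ((modularFunctionFieldFull N).val : ↥(modularFunctionFieldFull N) →+* LaurentSeries ℚ).comp
      (algebraMap ↥(Algebra.adjoin ↥(GaloisRep.ratLocalizedAt ℓ) S) ↥(modularFunctionFieldFull N))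
  have hj : ∀ c, j c ∈ (incl ℓ).range := fun c => adjoin_coe_mem_range ℓ N S hS c.2
  refine ⟨p.map (liftOfRange (incl ℓ) (incl_injective ℓ) j hj), hmonic.map _, ?_⟩
  rw [Polynomial.eval₂_map]
  have hcomp : (incl ℓ).comp (liftOfRange (incl ℓ) (incl_injective ℓ) j hj) = j :=
    RingHom.ext fun c => by
      rw [RingHom.comp_apply]
      exact apply_liftOfRange (incl ℓ) (incl_injective ℓ) j hj c
  rw [hcomp]
  have := congrArg ((modularFunctionFieldFull N).val :
    ↥(modularFunctionFieldFull N) →+* LaurentSeries ℚ) hroot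
  rw [Polynomial.hom_eval₂, map_zero] at this
  exact this

omit [NeZero N] in
theorem den_ne_zero (x : ↥(GaloisRep.ratLocalizedAt ℓ)) : (((x : ℚ).den : ℕ) : ZMod ℓ) ≠ 0 := by
  intro h
  rw [ZMod.natCast_eq_zero_iff] at h
  have h1 : (x : ℚ).den.Coprime ℓ := x.2
  have h2 : ℓ ∣ Nat.gcd (x : ℚ).den ℓ := Nat.dvd_gcd h dvd_rfl
  rw [h1] at h2
  exact (Fact.out : ℓ.Prime).one_lt.ne' (Nat.dvd_one.mp h2)

/-- The residue map `ℤ_(ℓ) → 𝔽_ℓ`. -/
def resid : ↥(GaloisRep.ratLocalizedAt ℓ) →+* ZMod ℓ where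
  toFun x := ((x : ℚ) : ZMod ℓ)
  map_one' := by simp
  map_zero' := by simp
  map_mul' x y := Rat.cast_mul_of_ne_zero (den_ne_zero ℓ x) (den_ne_zero ℓ y)
  map_add' x y := Rat.cast_add_of_ne_zero (den_ne_zero ℓ x) (den_ne_zero ℓ y)

omit [NeZero N] in
theorem resid_eq_zero_iff (x : ↥(GaloisRep.ratLocalizedAt ℓ)) :
    resid ℓ x = 0 ↔ (ℓ : ℚ)⁻¹ * (x : ℚ) ∈ GaloisRep.ratLocalizedAt ℓ := by
  have hℓ : (ℓ : ℚ) ≠ 0 := Nat.cast_ne_zero.mpr (Fact.out : ℓ.Prime).ne_zero
  constructor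
  · intro h
    have h1 : (((x : ℚ).num : ℤ) : ZMod ℓ) = 0 := by
      have : ((x : ℚ) : ZMod ℓ) = 0 := h
      rw [Rat.cast_def, div_eq_zero_iff] at this
      exact this.resolve_right (den_ne_zero ℓ x)
    rw [ZMod.intCast_zmod_eq_zero_iff_dvd] at h1
    obtain ⟨c, hc⟩ := h1
    have h2 : (ℓ : ℚ)⁻¹ * (x : ℚ) = (c : ℚ) * ((x : ℚ).den : ℚ)⁻¹ := by
      conv_lhs => rw [← Rat.num_div_den (x : ℚ), hc]
      push_cast
      field_simp
    rw [h2]
    refine Subring.mul_mem _ (intCast_mem _ c) ?_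
    show (((x : ℚ).den : ℚ)⁻¹).den.Coprime ℓ
    have h3 : (((x : ℚ).den : ℚ)⁻¹).den = (x : ℚ).den := by
      rw [Rat.inv_natCast_den]
      simp [(x : ℚ).den_nz]
    rw [h3]
    exact x.2
  · intro h
    have : x = (ℓ : ↥(GaloisRep.ratLocalizedAt ℓ)) * ⟨_, h⟩ := by
      apply Subtype.ext
      push_cast
      field_simp
    rw [this, map_mul, map_natCast, ZMod.natCast_self, zero_mul]

omit [NeZero N] [Fact ℓ.Prime] in
theorem jq_mem_range : jq ∈ (incl ℓ).range := by
  have := qExpand_jq_mem_range ℓ 1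
  rwa [qExpand_one_apply] at this

theorem isUnit_jqModC (R : Type*) [CommRing R] : IsUnit (jqModC R) := by
  unfold jqModC
  refine IsUnit.mul ?_ ?_
  · refine IsUnit.of_mul_eq_one (HahnSeries.single (1 : ℤ) 1) ?_
    rw [HahnSeries.single_mul_single]
    simp
  · refine IsUnit.map _ ?_
    rw [PowerSeries.isUnit_iff_constantCoeff]
    have : PowerSeries.constantCoeff (PowerSeries.map (Int.castRingHom R) jNum) = 1 := by
      rw [← PowerSeries.coeff_zero_eq_constantCoeff_apply, PowerSeries.coeff_map,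
        PowerSeries.coeff_zero_eq_constantCoeff_apply, constantCoeff_jNum]
      simp
    rw [this]
    exact isUnit_one

omit [NeZero N] [Fact ℓ.Prime] in
theorem jq_inv_mem_range : jq⁻¹ ∈ (incl ℓ).range := by
  obtain ⟨u, hu⟩ := isUnit_jqModC ↥(GaloisRep.ratLocalizedAt ℓ)
  refine ⟨((u⁻¹ : _ˣ) : LaurentSeries ↥(GaloisRep.ratLocalizedAt ℓ)), ?_⟩
  have h1 : incl ℓ (jqModC _) = jq := by rw [coeffMap_jqModC, jqModC_rat]
  have h2 : incl ℓ ((u⁻¹ : _ˣ) : LaurentSeries ↥(GaloisRep.ratLocalizedAt ℓ)) * jq = 1 := by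
    rw [← h1, ← hu, ← map_mul, Units.inv_mul, map_one]
  exact eq_inv_of_mul_eq_one_left h2

theorem hS_fin : ∀ s ∈ ({jFull N} : Set ↥(modularFunctionFieldFull N)),
    (s : LaurentSeries ℚ) ∈ (incl ℓ).range := by
  rintro s rfl
  exact jq_mem_range ℓ

theorem hS_inf : ∀ s ∈ ({(jFull N)⁻¹} : Set ↥(modularFunctionFieldFull N)),
    (s : LaurentSeries ℚ) ∈ (incl ℓ).range := by
  rintro s rfl
  exact jq_inv_mem_range ℓ

theorem hS_mid : ∀ s ∈ ({jFull N, (jFull N)⁻¹} : Set ↥(modularFunctionFieldFull N)),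
    (s : LaurentSeries ℚ) ∈ (incl ℓ).range := by
  rintro s (rfl | rfl)
  · exact jq_mem_range ℓ
  · exact jq_inv_mem_range ℓ

section Chart

variable (S : Set ↥(modularFunctionFieldFull N))
  (hS : ∀ s ∈ S, (s : LaurentSeries ℚ) ∈ (incl ℓ).range)

/-- The inclusion of a chart algebra into `ℚ((q))`. -/
def chartCoe : ↥(chartAlg N ℓ S) →+* LaurentSeries ℚ :=
  ((modularFunctionFieldFull N).val : ↥(modularFunctionFieldFull N) →+* LaurentSeries ℚ).comp
    ((chartAlg N ℓ S).val : ↥(chartAlg N ℓ S) →+* ↥(modularFunctionFieldFull N))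

theorem chartCoe_apply (x : ↥(chartAlg N ℓ S)) :
    chartCoe ℓ N S x = ((x : ↥(modularFunctionFieldFull N)) : LaurentSeries ℚ) := rfl

/-- The `q`-expansion of an element of a chart algebra, with coefficients in `ℤ_(ℓ)`. -/
def chartLift : ↥(chartAlg N ℓ S) →+* LaurentSeries ↥(GaloisRep.ratLocalizedAt ℓ) :=
  liftOfRange (incl ℓ) (incl_injective ℓ) (chartCoe ℓ N S)
    (fun c => chartAlg_coe_mem_range ℓ N S hS c.2)

theorem incl_chartLift (x : ↥(chartAlg N ℓ S)) :
    incl ℓ (chartLift ℓ N S hS x) = ((x : ↥(modularFunctionFieldFull N)) : LaurentSeries ℚ) :=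
  apply_liftOfRange _ _ _ _ x

theorem coeff_chartLift (x : ↥(chartAlg N ℓ S)) (k : ℤ) :
    (((chartLift ℓ N S hS x).coeff k : ↥(GaloisRep.ratLocalizedAt ℓ)) : ℚ) =
      ((x : ↥(modularFunctionFieldFull N)) : LaurentSeries ℚ).coeff k := by
  rw [← incl_chartLift ℓ N S hS x]
  rfl

/-- Reduction mod `ℓ` of `q`-expansions on a chart algebra. -/
def chartRed : ↥(chartAlg N ℓ S) →+* LaurentSeries (ZMod ℓ) :=
  (coeffMap (resid ℓ)).comp (chartLift ℓ N S hS)

/-- The `q`-expansion principle for the chart algebra attached to `S`. -/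
def QEP : Prop :=
  ∀ x ∈ chartAlg N ℓ S,
    (∀ k : ℤ, (ℓ : ℚ)⁻¹ * (x : LaurentSeries ℚ).coeff k ∈ GaloisRep.ratLocalizedAt ℓ) →
      (ℓ : ↥(modularFunctionFieldFull N))⁻¹ * x ∈ chartAlg N ℓ S

theorem ker_chartRed (h : QEP ℓ N S) :
    RingHom.ker (chartRed ℓ N S hS) = Ideal.span {(ℓ : ↥(chartAlg N ℓ S))} := by
  have hℓ : (ℓ : ↥(modularFunctionFieldFull N)) ≠ 0 :=
    Nat.cast_ne_zero.mpr (Fact.out : ℓ.Prime).ne_zero
  apply le_antisymm
  · intro x hx
    rw [RingHom.mem_ker] at hx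
    have hk : ∀ k : ℤ, (ℓ : ℚ)⁻¹ *
        ((x : ↥(modularFunctionFieldFull N)) : LaurentSeries ℚ).coeff k ∈
          GaloisRep.ratLocalizedAt ℓ := by
      intro k
      rw [← coeff_chartLift ℓ N S hS x k, ← resid_eq_zero_iff]
      have := congrArg (fun y => HahnSeries.coeff y k) hx
      simpa [chartRed] using this
    have hy := h x x.2 hk
    rw [Ideal.mem_span_singleton]
    refine ⟨⟨_, hy⟩, ?_⟩
    apply Subtype.ext
    push_cast
    field_simp
  · rw [Ideal.span_le]
    intro x hx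
    rw [Set.mem_singleton_iff] at hx
    subst hx
    rw [SetLike.mem_coe, RingHom.mem_ker, map_natCast]
    ext k
    have : ((ℓ : ℕ) : LaurentSeries (ZMod ℓ)) = HahnSeries.C ((ℓ : ℕ) : ZMod ℓ) := by
      rw [map_natCast]
    rw [this, ZMod.natCast_self, map_zero]

end Chart

end Igusa

end Fermat.Agent.S28
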