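import Fermat.Agent.S28.DescChar0
import Fermat.Agent.S28.DescVal
import Fermat.Agent.S28.DescPeel
import Fermat.Agent.S28.Reduction

set_option autoImplicit false

namespace Fermat.Agent.S28

open ModularCurve Polynomial

noncomputable section

/-- lifting a two-variable polynomial along an injective-on-coefficients ring hom. -/
theorem exists_map_mapRingHom_eq {A B : Type*} [CommRing A] [CommRing B] (f : A →+* B)
    (P : B[X][X]) (hP : ∀ b a, ∃ r : A, f r = (P.coeff b).coeff a) :
    ∃ P' : A[X][X], P'.map (Polynomial.mapRingHom f) = P := by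
  rw [← Polynomial.mem_lifts, Polynomial.lifts_iff_coeff_lifts]
  intro b
  have : P.coeff b ∈ Polynomial.lifts f := by
    rw [Polynomial.lifts_iff_coeff_lifts]
    intro a
    exact hP b a
  obtain ⟨q, hq⟩ := (Polynomial.mem_lifts _).mp this
  exact ⟨q, hq⟩

section

variable {N : ℕ} [NeZero N] (D : AnalyticData N) (O : Subring ℂ)
  (hN : ((N : ℂ))⁻¹ ∈ O) (hζ : ∀ ζ : ℂ, ζ ^ N = 1 → ζ ∈ O)

/-- `j(t^N)` over an arbitrary ring. -/
abbrev JN (A : Type*) [CommRing A] (N : ℕ) [NeZero N] : LaurentSeries A :=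
  qExpand A N (jqModC A)

/-- `ℤ((q)) → A((t))`. -/
abbrev iotaN (A : Type*) [CommRing A] (N : ℕ) [NeZero N] : LaurentSeries ℤ →+* LaurentSeries A :=
  (qExpand A N).comp (coeffMap (Int.castRingHom A))

theorem coeffMap_JN {A B : Type*} [CommRing A] [CommRing B] (f : A →+* B) (N : ℕ) [NeZero N] :
    coeffMap f (JN A N) = JN B N := by
  rw [coeffMap_qExpand, coeffMap_jqModC]

theorem coeffMap_iotaN {A B : Type*} [CommRing A] [CommRing B] (f : A →+* B) (N : ℕ) [NeZero N]
    (V : LaurentSeries ℤ) : coeffMap f (iotaN A N V) = iotaN B N V := by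
  show coeffMap f (qExpand A N (coeffMap (Int.castRingHom A) V)) = _
  rw [coeffMap_qExpand, coeffMap_coeffMap, coeffMap_congr (RingHom.ext_int _ (Int.castRingHom B))]
  rfl

include hN hζ in
/-- the factorisation of `W(J, Z)` lifts to `O((t))`. -/
theorem exists_lift_factorisation :
    ∃ Vs' : Multiset (LaurentSeries O), Vs'.map (coeffMap O.subtype) = D.Vs ∧
      D.W.map (evP ℂ (JC N))
        = ((X - C (iotaN O N D.V)) * (Vs'.map fun v => X - C v).prod).map
            (coeffMap O.subtype) := by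
  obtain ⟨Vs', hVs'⟩ := exists_multiset_map_eq (coeffMap O.subtype) D.Vs fun v hv =>
    exists_coeffMap_subtype_eq O v (D.hint O hN hζ v hv)
  refine ⟨Vs', hVs', ?_⟩
  rw [D.hW, Polynomial.map_mul, Polynomial.map_sub, Polynomial.map_X, Polynomial.map_C,
    Polynomial.map_multiset_prod, Multiset.map_map, coeffMap_iotaN, ← hVs', Multiset.map_map]
  congr 2
  refine Multiset.map_congr rfl fun v _ => ?_
  simp

include hN hζ in
/-- all coefficients of `W` lie in `O`. -/
theorem coeff_W_mem (b a : ℕ) : (D.W.coeff b).coeff a ∈ O := by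
  obtain ⟨Vs', -, h⟩ := exists_lift_factorisation D O hN hζ
  refine coeff_mem_of_evP_qExpand_jqModC O N (D.W.coeff b) (fun m => ?_) a
  have h1 : evP ℂ (qExpand ℂ N (jqModC ℂ)) (D.W.coeff b) = (D.W.map (evP ℂ (JC N))).coeff b := by
    rw [Polynomial.coeff_map]
    rfl
  rw [h1, h, Polynomial.coeff_map, coeffMap_coeff]
  exact Subtype.mem _

end

end

end Fermat.Agent.S28
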