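import Fermat.Agent.S28.An.Sym
import Fermat.Agent.S28.An.Unit

set_option autoImplicit false

namespace Fermat.Agent.S28

open ModularCurve Polynomial UpperHalfPlane Complex
open scoped MatrixGroups Real Manifold

noncomputable section

variable (N : ℕ) [NeZero N]

/-- the coset space `SL₂(ℤ)/Γ₀(N)`. -/
abbrev Cos : Type := SL(2, ℤ) ⧸ CongruenceSubgroup.Gamma0 N

/-- representatives of the right cosets `Γ₀(N) γ`. -/
def cosRep (q : Cos N) : SL(2, ℤ) := (Quotient.out q)⁻¹

theorem cosRep_smul {φ : ℍ → ℂ}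
    (hφ : ∀ γ ∈ CongruenceSubgroup.Gamma0 N, ∀ τ, φ (γ • τ) = φ τ)
    (γ : SL(2, ℤ)) (q : Cos N) (τ : ℍ) :
    φ (cosRep N q • (γ • τ)) = φ (cosRep N (γ⁻¹ • q) • τ) := by
  obtain ⟨h, hh⟩ := QuotientGroup.mk_out_eq_mul (CongruenceSubgroup.Gamma0 N)
    (γ⁻¹ * Quotient.out q)
  have hq : (γ⁻¹ • q : Cos N) = ((γ⁻¹ * Quotient.out q : SL(2, ℤ)) : Cos N) := by
    conv_lhs => rw [← QuotientGroup.out_eq' q]
    rfl
  have h1 : cosRep N (γ⁻¹ • q) = (h : SL(2, ℤ))⁻¹ * (cosRep N q * γ) := by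
    unfold cosRep
    rw [hq, hh]
    group
  rw [h1, mul_smul, hφ _ (inv_mem h.2), mul_smul]

theorem cosRep_one_mem : cosRep N ((1 : SL(2, ℤ)) : Cos N) ∈ CongruenceSubgroup.Gamma0 N := by
  obtain ⟨h, hh⟩ := QuotientGroup.mk_out_eq_mul (CongruenceSubgroup.Gamma0 N) 1
  unfold cosRep
  rw [hh, one_mul]
  exact inv_mem h.2

theorem cosRep_not_mem {q : Cos N} (hq : q ≠ ((1 : SL(2, ℤ)) : Cos N)) :
    cosRep N q ∉ CongruenceSubgroup.Gamma0 N := by
  intro h
  apply hq
  rw [← QuotientGroup.out_eq' q, QuotientGroup.eq]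
  simpa [cosRep] using h

theorem nonempty_analyticData : Nonempty (AnalyticData N) := by
  classical
  letI : Fintype (Cos N) := Fintype.ofFinite _
  set q₀ : Cos N := ((1 : SL(2, ℤ)) : Cos N) with hq₀
  -- the family of conjugates of the unit
  let f : Cos N → ℍ → ℂ := fun q τ => vF N (cosRep N q • τ)
  have hex := fun q : Cos N => exists_isExp_vF_smul N (cosRep N q)
  let F : Cos N → LaurentSeries ℂ := fun q => Classical.choose (hex q)
  have hF : ∀ q, IsExp N (f q) (F q) := fun q => (Classical.choose_spec (hex q)).1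
  have hF' := fun q : Cos N => (Classical.choose_spec (hex q)).2
  have hhol : ∀ q, MDiff (f q) := fun q => mdiff_comp_smul (mdiff_vF N) (cosRep N q)
  let perm : SL(2, ℤ) → Equiv.Perm (Cos N) := fun γ => MulAction.toPerm γ⁻¹
  have hperm : ∀ γ q τ, f q (γ • τ) = f (perm γ q) τ := fun γ q τ =>
    cosRep_smul N (vF_smul_of_mem_Gamma0 N) γ q τ
  have hN : 0 < N := Nat.pos_of_ne_zero (NeZero.ne N)
  have hF₀ : F q₀ = iotaC N (VZ N) := by
    refine IsExp.unique hN (hF q₀) ?_
    have : f q₀ = vF N := by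
      funext τ
      exact vF_smul_of_mem_Gamma0 N _ (cosRep_one_mem N) τ
    rw [this]
    exact isExp_vF N
  obtain ⟨W, hW⟩ := sym_prod N f F hF hhol perm hperm
  -- the interpolation polynomials
  have hG : ∀ d : ℕ, ∃ P : ℂ[X][X], ∀ [NeZero d], d ∣ N →
      P.eval₂ (evP ℂ (JC N)) (iotaC N (VZ N)) =
        qExpand ℂ N (qExpand ℂ d (jqModC ℂ)) *
          (((Finset.univ.erase q₀).val.map F).map fun v => iotaC N (VZ N) - v).prod := by
    intro d
    by_cases hd : d ≠ 0 ∧ d ∣ N
    · haveI : NeZero d := ⟨hd.1⟩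
      let g : Cos N → ℍ → ℂ := fun q τ => jdF d (cosRep N q • τ)
      have hexg := fun q : Cos N => exists_isExp_jdF_smul N d hd.2 (cosRep N q)
      let G : Cos N → LaurentSeries ℂ := fun q => Classical.choose (hexg q)
      have hGe : ∀ q, IsExp N (g q) (G q) := fun q => Classical.choose_spec (hexg q)
      have hholg : ∀ q, MDiff (g q) := fun q => mdiff_comp_smul (mdiff_jdF d) (cosRep N q)
      have hpermg : ∀ γ q τ, g q (γ • τ) = g (perm γ q) τ := fun γ q τ =>
        cosRep_smul N (jdF_smul_of_mem_Gamma0 N d hd.2) γ q τ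
      have hG₀ : G q₀ = qExpand ℂ N (qExpand ℂ d (jqModC ℂ)) := by
        refine IsExp.unique hN (hGe q₀) ?_
        have : g q₀ = jdF d := by
          funext τ
          exact jdF_smul_of_mem_Gamma0 N d hd.2 _ (cosRep_one_mem N) τ
        rw [this]
        exact isExp_jdF N d hd.2
      obtain ⟨P, hP⟩ := sym_interp N f F hF hhol g G hGe hholg perm hperm hpermg
      refine ⟨P, fun _ => ?_⟩
      rw [← Polynomial.eval_map, hP, Polynomial.eval_finset_sum,
        Finset.sum_eq_single q₀]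
      · rw [Polynomial.eval_mul, Polynomial.eval_C, hG₀, Polynomial.eval_prod,
          Multiset.map_map]
        congr 1
        simp [Finset.prod]
      · intro q _ hq
        rw [Polynomial.eval_mul, Polynomial.eval_prod,
          Finset.prod_eq_zero (Finset.mem_erase.mpr ⟨Ne.symm hq, Finset.mem_univ q₀⟩), mul_zero]
        simp [hF₀]
      · intro h
        exact absurd (Finset.mem_univ q₀) h
    · refine ⟨0, fun {hne} hdN => ?_⟩
      exact absurd ⟨hne.out, hdN⟩ hd
  choose G hG using hG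
  refine ⟨{
    V := VZ N
    Vs := (Finset.univ.erase q₀).val.map F
    W := W
    G := G
    hW := ?_
    hpos := ?_
    hint := ?_
    hunit := ?_
    hG := fun d _ hd => hG d hd }⟩
  · rw [hW, ← Finset.mul_prod_erase Finset.univ _ (Finset.mem_univ q₀), hF₀, Multiset.map_map]
    rfl
  · intro v hv
    obtain ⟨q, hq, rfl⟩ := Multiset.mem_map.mp hv
    exact (hF' q (cosRep_not_mem N (Finset.ne_of_mem_erase hq))).1
  · intro O h1 h2 v hv
    obtain ⟨q, hq, rfl⟩ := Multiset.mem_map.mp hv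
    exact ((hF' q (cosRep_not_mem N (Finset.ne_of_mem_erase hq))).2 O h1 h2).1
  · intro O h1 h2 v hv
    obtain ⟨q, hq, rfl⟩ := Multiset.mem_map.mp hv
    exact ((hF' q (cosRep_not_mem N (Finset.ne_of_mem_erase hq))).2 O h1 h2).2

end

end Fermat.Agent.S28
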