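import Mathlib
import Fermat.Prelude.Def_ModularCurve_LaurentCoeff
import Fermat.Prelude.Def_GaloisRep_Flat

set_option autoImplicit false
open scoped TensorProduct

noncomputable section

namespace Fermat.Agent.S28

/-- Ring homomorphisms out of `ℤ_(ℓ)` are unique. -/
theorem ratLoc_ringHom_ext (ℓ : ℕ) {S : Type*} [CommRing S]
    (f g : ↥(GaloisRep.ratLocalizedAt ℓ) →+* S) : f = g := by
  ext x
  obtain ⟨q, hq⟩ := x
  have hden : ((q.den : ℚ)⁻¹) ∈ GaloisRep.ratLocalizedAt ℓ := by
    change ((q.den : ℚ)⁻¹).den.Coprime ℓ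
    have h1 : ((q.den : ℚ)⁻¹).den = q.den := by
      simp
    rw [h1]
    exact hq
  let dinv : ↥(GaloisRep.ratLocalizedAt ℓ) := ⟨(q.den : ℚ)⁻¹, hden⟩
  have h1 : dinv * (q.den : ↥(GaloisRep.ratLocalizedAt ℓ)) = 1 := by
    apply Subtype.ext
    simp [dinv]
  have h2 : (⟨q, hq⟩ : ↥(GaloisRep.ratLocalizedAt ℓ)) =
      dinv * (q.num : ↥(GaloisRep.ratLocalizedAt ℓ)) := by
    apply Subtype.ext
    simp only [dinv, Subring.coe_mul, Subring.coe_intCast]
    rw [mul_comm, ← div_eq_mul_inv, Rat.num_div_den]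
  have hf : f dinv * (q.den : S) = 1 := by
    rw [← map_natCast f, ← map_mul, h1, map_one]
  have hg : g dinv * (q.den : S) = 1 := by
    rw [← map_natCast g, ← map_mul, h1, map_one]
  have hfg : f dinv = g dinv := by
    calc f dinv = f dinv * (g dinv * (q.den : S)) := by rw [hg, mul_one]
      _ = (f dinv * (q.den : S)) * g dinv := by ring
      _ = g dinv := by rw [hf, one_mul]
  rw [h2, map_mul, map_mul, map_intCast, map_intCast, hfg]


section Main

variable (ℓ : ℕ) [Fact ℓ.Prime] (A : Type) [CommRing A] [Algebra ↥(GaloisRep.ratLocalizedAt ℓ) A]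
  (φ : A →+* LaurentSeries (ZMod ℓ))
  (K : Type) [Field K] [CharP K ℓ] [Algebra ↥(GaloisRep.ratLocalizedAt ℓ) K]

/-- The comparison map `A ⊗ K → K((q))`. -/
def tensorToLaurent : A ⊗[↥(GaloisRep.ratLocalizedAt ℓ)] K →ₐ[↥(GaloisRep.ratLocalizedAt ℓ)]
    LaurentSeries K :=
  Algebra.TensorProduct.productMap
    ({ (ModularCurve.coeffMap (ZMod.castHom (dvd_refl ℓ) K)).comp φ with
        commutes' := fun r => by
          have := ratLoc_ringHom_ext ℓ
            (((ModularCurve.coeffMap (ZMod.castHom (dvd_refl ℓ) K)).comp φ).comp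
              (algebraMap ↥(GaloisRep.ratLocalizedAt ℓ) A))
            (algebraMap ↥(GaloisRep.ratLocalizedAt ℓ) (LaurentSeries K))
          exact RingHom.congr_fun this r } :
      A →ₐ[↥(GaloisRep.ratLocalizedAt ℓ)] LaurentSeries K)
    ({ (HahnSeries.C : K →+* LaurentSeries K) with
        commutes' := fun r => by
          have := ratLoc_ringHom_ext ℓ
            ((HahnSeries.C : K →+* LaurentSeries K).comp
              (algebraMap ↥(GaloisRep.ratLocalizedAt ℓ) K))
            (algebraMap ↥(GaloisRep.ratLocalizedAt ℓ) (LaurentSeries K))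
          exact RingHom.congr_fun this r } :
      K →ₐ[↥(GaloisRep.ratLocalizedAt ℓ)] LaurentSeries K)

theorem tensorToLaurent_tmul_coeff (a : A) (c : K) (n : ℤ) :
    (tensorToLaurent ℓ A φ K (a ⊗ₜ c)).coeff n =
      (ZMod.castHom (dvd_refl ℓ) K ((φ a).coeff n)) * c := by
  unfold tensorToLaurent
  rw [Algebra.TensorProduct.productMap_apply_tmul]
  simp [mul_comm]


omit [Fact ℓ.Prime] [CharP K ℓ] in
theorem natCast_smul_eq (n : ℕ) (c : K) :
    (n : ↥(GaloisRep.ratLocalizedAt ℓ)) • c = (n : K) * c := by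
  rw [Algebra.smul_def, map_natCast]

omit [Fact ℓ.Prime] [CharP K ℓ] in
theorem exists_finsupp_repr
    {ι : Type} (𝔟 : ι → K)
    (hspan : ∀ c : K, ∃ m : ι →₀ ℕ, c = m.sum (fun i n => (n : K) * 𝔟 i))
    (t : A ⊗[↥(GaloisRep.ratLocalizedAt ℓ)] K) :
    ∃ a : ι →₀ A, t = a.sum (fun i x => x ⊗ₜ[↥(GaloisRep.ratLocalizedAt ℓ)] 𝔟 i) := by
  classical
  induction t using TensorProduct.induction_on with
  | zero => exact ⟨0, by simp⟩
  | tmul x c =>
    obtain ⟨m, hm⟩ := hspan c
    refine ⟨m.mapRange (fun n : ℕ => (n : A) * x) (by simp), ?_⟩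
    rw [Finsupp.sum_mapRange_index (by simp), hm, Finsupp.sum, Finsupp.sum, TensorProduct.tmul_sum]
    refine Finset.sum_congr rfl fun i _ => ?_
    rw [← natCast_smul_eq ℓ K, TensorProduct.tmul_smul, TensorProduct.smul_tmul',
      Algebra.smul_def, map_natCast]
  | add x y hx hy =>
    obtain ⟨a, ha⟩ := hx
    obtain ⟨b, hb⟩ := hy
    refine ⟨a + b, ?_⟩
    rw [Finsupp.sum_add_index' (by simp) (by intro i u v; rw [TensorProduct.add_tmul]), ha, hb]


theorem tensorToLaurent_injective (hker : RingHom.ker φ = Ideal.span {(ℓ : A)}) :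
    Function.Injective (tensorToLaurent ℓ A φ K) := by
  classical
  let _ : Algebra (ZMod ℓ) K := ZMod.algebra K ℓ
  let 𝔟 := Module.Basis.ofVectorSpace (ZMod ℓ) K
  have hcast : ∀ z : ZMod ℓ, algebraMap (ZMod ℓ) K z = ((z.val : ℕ) : K) := by
    intro z
    conv_lhs => rw [← ZMod.natCast_zmod_val z]
    rw [map_natCast]
  have hcast' : ∀ z : ZMod ℓ, ZMod.castHom (dvd_refl ℓ) K z = algebraMap (ZMod ℓ) K z := by
    intro z
    rfl
  have hspan : ∀ c : K, ∃ m : _ →₀ ℕ, c = m.sum (fun i n => (n : K) * 𝔟 i) := by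
    intro c
    refine ⟨(𝔟.repr c).mapRange (fun z => z.val) (by simp), ?_⟩
    rw [Finsupp.sum_mapRange_index (by simp)]
    conv_lhs => rw [← 𝔟.linearCombination_repr c, Finsupp.linearCombination_apply]
    refine Finset.sum_congr rfl fun i _ => ?_
    show (𝔟.repr c) i • 𝔟 i = _
    rw [Algebra.smul_def, hcast]
  rw [injective_iff_map_eq_zero]
  intro t ht
  obtain ⟨a, rfl⟩ := exists_finsupp_repr ℓ A K 𝔟 hspan t
  have hzero : ∀ i, φ (a i) = 0 := by
    intro i
    ext n
    have hn : (tensorToLaurent ℓ A φ K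
        (a.sum fun i x => x ⊗ₜ[↥(GaloisRep.ratLocalizedAt ℓ)] 𝔟 i)).coeff n = 0 := by
      rw [ht]; rfl
    rw [Finsupp.sum, map_sum, HahnSeries.coeff_sum] at hn
    simp only [tensorToLaurent_tmul_coeff, hcast'] at hn
    have hli := 𝔟.linearIndependent
    rw [linearIndependent_iff'] at hli
    have := hli a.support (fun i => (φ (a i)).coeff n) (by
      rw [← hn]
      exact Finset.sum_congr rfl fun i _ => by rw [Algebra.smul_def]) i
    by_cases hi : i ∈ a.support
    · simpa using this hi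
    · have : a i = 0 := by simpa using hi
      simp [this]
  rw [Finsupp.sum]
  refine Finset.sum_eq_zero fun i _ => ?_
  have hmem : a i ∈ Ideal.span {(ℓ : A)} := by
    rw [← hker]; exact hzero i
  obtain ⟨a', ha'⟩ := Ideal.mem_span_singleton'.mp hmem
  rw [← ha', mul_comm, ← map_natCast (algebraMap ↥(GaloisRep.ratLocalizedAt ℓ) A),
    ← Algebra.smul_def, TensorProduct.smul_tmul, natCast_smul_eq, CharP.cast_eq_zero, zero_mul,
    TensorProduct.tmul_zero]

theorem isDomain_tensor_of_ker_eq_span (hker : RingHom.ker φ = Ideal.span {(ℓ : A)}) :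
    IsDomain (A ⊗[↥(GaloisRep.ratLocalizedAt ℓ)] K) :=
  (tensorToLaurent_injective ℓ A φ K hker).isDomain (tensorToLaurent ℓ A φ K).toRingHom

end Main

end Fermat.Agent.S28
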