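import Fermat.Agent.S28.QEPCore
import Fermat.Agent.S28.Reduction
import Fermat.Agent.S28.TensorDomain
import Fermat.Agent.S28.NP
import Fermat.Prelude.Thm_ModularCurve_coeff_jqModC_neg_one

set_option autoImplicit false

namespace Fermat.Agent.S28

open ModularCurve ModularCurve.IgusaScheme Polynomial

noncomputable section

/-- Common output of route (A) (analytic data + descent) and route (B) (tower): a finite family of
integral `q`-series, integral over `ℤ_(ℓ)[j]`, spanning `F` over `ℚ(j)` and independent over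
`𝔽_ℓ[j]` after reduction. -/
def HasBasisMod (N : ℕ) [NeZero N] (ℓ : ℕ) [Fact ℓ.Prime] : Prop :=
  ∃ (n : ℕ) (b : Fin n → LaurentSeries ℤ),
    (∀ i, (evP (Rl ℓ) (jqModC (Rl ℓ))).IsIntegralElem
      (coeffMap (Int.castRingHom (Rl ℓ)) (b i))) ∧
    (∀ y ∈ modularFunctionFieldFull N, ∃ (w : ℤ[X]) (u : Fin n → ℤ[X]), w ≠ 0 ∧
      evP ℤ jq w * y = ∑ i, evP ℤ jq (u i) * coeffMap (Int.castRingHom ℚ) (b i)) ∧
    (∀ u : Fin n → (ZMod ℓ)[X],
      ∑ i, evP (ZMod ℓ) (jqModC (ZMod ℓ)) (u i) * coeffMap (Int.castRingHom (ZMod ℓ)) (b i) = 0 →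
        u = 0)

theorem coeff_natCast_inv_mul (ℓ : ℕ) (x : LaurentSeries ℚ) (k : ℤ) :
    ((ℓ : LaurentSeries ℚ)⁻¹ * x).coeff k = (ℓ : ℚ)⁻¹ * x.coeff k := by
  have : (ℓ : LaurentSeries ℚ)⁻¹ = HahnSeries.C ((ℓ : ℚ)⁻¹) := by
    rw [map_inv₀, map_natCast]
  rw [this, HahnSeries.C_mul_eq_smul, HahnSeries.coeff_smul, smul_eq_mul]

theorem divCoeff_iff (ℓ : ℕ) (x : LaurentSeries ℚ) :
    (∀ k : ℤ, (ℓ : ℚ)⁻¹ * x.coeff k ∈ GaloisRep.ratLocalizedAt ℓ) ↔
      (ℓ : LaurentSeries ℚ)⁻¹ * x ∈ (incl ℓ).range := by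
  rw [mem_range_incl_iff]
  simp only [coeff_natCast_inv_mul]

theorem transcendental_jqModC (k : Type*) [Field k] : Transcendental k (jqModC k) := by
  rw [transcendental_iff]
  intro p hp
  by_contra hne
  obtain ⟨m, -, hm⟩ := exists_coeff_ne_zero_of_pole (k := k) (jqModC k) (order_jqModC_neg k) p hne
  apply hm
  have : evP k (jqModC k) p = 0 := hp
  rw [this]
  rfl


section Charts

variable (N : ℕ) [NeZero N] (ℓ : ℕ) [Fact ℓ.Prime]

omit [NeZero N] [Fact ℓ.Prime] in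
theorem QEP_iff (S : Set ↥(modularFunctionFieldFull N)) :
    QEP ℓ N S ↔ ∀ x ∈ chartAlg N ℓ S,
      (ℓ : LaurentSeries ℚ)⁻¹ * (x : LaurentSeries ℚ) ∈ (incl ℓ).range →
        (ℓ : ↥(modularFunctionFieldFull N))⁻¹ * x ∈ chartAlg N ℓ S := by
  unfold QEP
  simp only [divCoeff_iff]

theorem QEP_mid_of_QEP_fin
    (h : QEP ℓ N {jFull N}) : QEP ℓ N {jFull N, (jFull N)⁻¹} := by
  rw [QEP_iff] at h ⊢
  intro x hx hdiv
  have hx' : x ∈ chartAlg N ℓ (insert (jFull N)⁻¹ {jFull N}) := by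
    rw [show insert (jFull N)⁻¹ ({jFull N} : Set ↥(modularFunctionFieldFull N)) =
      {jFull N, (jFull N)⁻¹} from Set.pair_comm _ _]
    exact hx
  obtain ⟨n, hn⟩ := exists_pow_mul_mem_chartAlg (Set.mem_singleton _) (jFull_ne_zero N) hx'
  have h1 := h _ hn (by
    have : (ℓ : LaurentSeries ℚ)⁻¹ *
        (((jFull N) ^ n * x : ↥(modularFunctionFieldFull N)) : LaurentSeries ℚ) =
        jq ^ n * ((ℓ : LaurentSeries ℚ)⁻¹ * (x : LaurentSeries ℚ)) := by
      push_cast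
      rw [coe_jFull]
      ring
    rw [this]
    exact mul_mem (pow_mem (jq_mem_range ℓ) n) hdiv)
  have h2 : (ℓ : ↥(modularFunctionFieldFull N))⁻¹ * x =
      ((jFull N)⁻¹) ^ n * ((ℓ : ↥(modularFunctionFieldFull N))⁻¹ * ((jFull N) ^ n * x)) := by
    have h3 : ((jFull N)⁻¹) ^ n * (jFull N) ^ n = 1 := by
      rw [← mul_pow, inv_mul_cancel₀ (jFull_ne_zero N), one_pow]
    calc (ℓ : ↥(modularFunctionFieldFull N))⁻¹ * x
        = (((jFull N)⁻¹) ^ n * (jFull N) ^ n) * ((ℓ : ↥(modularFunctionFieldFull N))⁻¹ * x) := by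
          rw [h3, one_mul]
      _ = _ := by ring
  rw [h2]
  exact mul_mem (pow_mem (subset_chartAlg N ℓ _ (by simp)) n)
    (chartAlg_mono N ℓ (sFin_subset N) h1)


omit [NeZero N] in
theorem resid_eq_zero_iff_dvd (r : Rl ℓ) : resid ℓ r = 0 ↔ ((ℓ : ℕ) : Rl ℓ) ∣ r := by
  have hℓ : (ℓ : ℚ) ≠ 0 := Nat.cast_ne_zero.mpr (Fact.out : ℓ.Prime).ne_zero
  rw [resid_eq_zero_iff]
  constructor
  · intro h
    refine ⟨⟨_, h⟩, Subtype.ext ?_⟩
    push_cast
    field_simp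
  · rintro ⟨c, rfl⟩
    have : (ℓ : ℚ)⁻¹ * ((((ℓ : ℕ) : Rl ℓ) * c : Rl ℓ) : ℚ) = (c : ℚ) := by
      push_cast
      field_simp
    rw [this]
    exact c.2

omit [NeZero N] in
theorem prime_ell : Prime ((ℓ : ℕ) : Rl ℓ) := by
  refine ⟨?_, ?_, ?_⟩
  · exact Nat.cast_ne_zero.mpr (Fact.out : ℓ.Prime).ne_zero
  · intro hu
    have h1 := hu.map (resid ℓ)
    rw [(resid_eq_zero_iff_dvd ℓ _).mpr dvd_rfl] at h1
    exact not_isUnit_zero h1
  · intro a b hab
    rw [← resid_eq_zero_iff_dvd, map_mul, mul_eq_zero] at hab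
    rwa [← resid_eq_zero_iff_dvd, ← resid_eq_zero_iff_dvd]

theorem transcendental_jq_inv : Transcendental ℚ (jq⁻¹) := fun h =>
  transcendental_jqModC ℚ (by
    have := h.inv
    rwa [inv_inv] at this)

omit [Fact ℓ.Prime] in
theorem evP_jFull_inv_injective : Function.Injective (evP (Rl ℓ) (jFull N)⁻¹) := by
  rw [injective_iff_map_eq_zero]
  intro p hp
  have h1 : aeval (jq⁻¹ : LaurentSeries ℚ) (p.map (algebraMap (Rl ℓ) ℚ)) = 0 := by
    have h2 := congrArg ((modularFunctionFieldFull N).val :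
      ↥(modularFunctionFieldFull N) →+* LaurentSeries ℚ) hp
    rw [map_zero] at h2
    change ((modularFunctionFieldFull N).val : ↥(modularFunctionFieldFull N) →+* LaurentSeries ℚ)
      (eval₂ (algebraMap (Rl ℓ) ↥(modularFunctionFieldFull N)) (jFull N)⁻¹ p) = 0 at h2
    rw [Polynomial.hom_eval₂] at h2
    rw [aeval_def, eval₂_map, ← h2]
    congr 1
    exact ratLoc_ringHom_ext ℓ _ _
  have h3 := transcendental_iff.mp transcendental_jq_inv _ h1
  exact (Polynomial.map_eq_zero_iff (FaithfulSMul.algebraMap_injective (Rl ℓ) ℚ)).mp h3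

theorem QEP_inf_of_QEP_fin
    (h : QEP ℓ N {jFull N}) : QEP ℓ N {(jFull N)⁻¹} := by
  have hmid := QEP_mid_of_QEP_fin N ℓ h
  rw [QEP_iff] at hmid ⊢
  intro x hx hdiv
  have hy := hmid x (chartAlg_mono N ℓ (sInf_subset N) hx) hdiv
  have hy' : (ℓ : ↥(modularFunctionFieldFull N))⁻¹ * x ∈
      chartAlg N ℓ (insert (jFull N)⁻¹⁻¹ {(jFull N)⁻¹}) := by
    rw [inv_inv]; exact hy
  obtain ⟨n, hn⟩ := exists_pow_mul_mem_chartAlg (Set.mem_singleton _)
    (inv_ne_zero (jFull_ne_zero N)) hy'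
  rw [mem_chartAlg_iff, isIntegral_adjoin_singleton_iff] at hn hx ⊢
  have hℓ : (ℓ : ↥(modularFunctionFieldFull N)) ≠ 0 :=
    Nat.cast_ne_zero.mpr (Fact.out : ℓ.Prime).ne_zero
  refine isIntegralElem_of_mul_of_prime (evP (Rl ℓ) (jFull N)⁻¹) (evP_jFull_inv_injective N ℓ)
    (π := C ((ℓ : ℕ) : Rl ℓ)) (c := X ^ n) (prime_C_iff.mpr (prime_ell ℓ)) ?_ ?_ ?_
  · intro hdvd
    rw [C_dvd_iff_dvd_coeff] at hdvd
    have := hdvd n
    rw [coeff_X_pow_self] at this
    exact (prime_ell ℓ).not_isUnit (isUnit_of_dvd_one this)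
  · have : evP (Rl ℓ) (jFull N)⁻¹ (C ((ℓ : ℕ) : Rl ℓ)) *
        ((ℓ : ↥(modularFunctionFieldFull N))⁻¹ * x) = x := by
      rw [map_natCast C, map_natCast, mul_inv_cancel_left₀ hℓ]
    rw [this]
    exact hx
  · have : evP (Rl ℓ) (jFull N)⁻¹ (X ^ n) = ((jFull N)⁻¹) ^ n := by
      simp [evP]
    rw [this]
    exact hn


omit [NeZero N] [Fact ℓ.Prime] in
theorem isIntegralElem_comp_iff {P A B : Type*} [CommRing P] [CommRing A] [CommRing B]
    (f : P →+* A) (φ : A →+* B) (hφ : Function.Injective φ) (a : A) :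
    (φ.comp f).IsIntegralElem (φ a) ↔ f.IsIntegralElem a := by
  constructor
  · rintro ⟨p, hp, h0⟩
    refine ⟨p, hp, hφ ?_⟩
    rw [Polynomial.hom_eval₂, h0, map_zero]
  · rintro ⟨p, hp, h0⟩
    refine ⟨p, hp, ?_⟩
    rw [← Polynomial.hom_eval₂, h0, map_zero]

omit [Fact ℓ.Prime] in
theorem val_comp_evP_eq :
    ((modularFunctionFieldFull N).val : ↥(modularFunctionFieldFull N) →+* LaurentSeries ℚ).comp
      (evP (Rl ℓ) (jFull N)) = (incl ℓ).comp (evP (Rl ℓ) (jqModC (Rl ℓ))) := by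
  apply Polynomial.ringHom_ext'
  · exact ratLoc_ringHom_ext ℓ _ _
  · have h1 : incl ℓ (jqModC _) = jq := by rw [coeffMap_jqModC, jqModC_rat]
    simp [evP, h1]

omit [NeZero N] [Fact ℓ.Prime] in
theorem incl_evP_map (w : ℤ[X]) :
    incl ℓ (evP (Rl ℓ) (jqModC (Rl ℓ)) (w.map (Int.castRingHom (Rl ℓ)))) = evP ℤ jq w := by
  have h : ((incl ℓ).comp (evP (Rl ℓ) (jqModC (Rl ℓ)))).comp
      (Polynomial.mapRingHom (Int.castRingHom (Rl ℓ))) = evP ℤ jq := by
    apply Polynomial.ringHom_ext'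
    · exact RingHom.ext_int _ _
    · have h1 : incl ℓ (jqModC _) = jq := by rw [coeffMap_jqModC, jqModC_rat]
      simp [evP, h1]
  exact RingHom.congr_fun h w

theorem QEP_fin_of_hasBasisMod
    (h : HasBasisMod N ℓ) : QEP ℓ N {jFull N} := by
  rw [QEP_iff]
  intro x hx hdiv
  obtain ⟨n, b, hintb, hspan, hindep⟩ := h
  obtain ⟨y, hy⟩ := hdiv
  have hℓ : (ℓ : LaurentSeries ℚ) ≠ 0 := by
    have := algebraRat.charZero (LaurentSeries ℚ)
    exact Nat.cast_ne_zero.mpr (Fact.out : ℓ.Prime).ne_zero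
  have hval : Function.Injective ((modularFunctionFieldFull N).val :
      ↥(modularFunctionFieldFull N) →+* LaurentSeries ℚ) := Subtype.val_injective
  have hyx : ((modularFunctionFieldFull N).val :
      ↥(modularFunctionFieldFull N) →+* LaurentSeries ℚ)
      ((ℓ : ↥(modularFunctionFieldFull N))⁻¹ * x) = incl ℓ y := by
    rw [hy, map_mul, map_inv₀, map_natCast]
    rfl
  rw [mem_chartAlg_iff, isIntegral_adjoin_singleton_iff] at hx ⊢
  rw [← isIntegralElem_comp_iff _ _ hval, val_comp_evP_eq] at hx ⊢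
  rw [hyx, isIntegralElem_comp_iff _ _ (incl_injective ℓ)]
  refine qep_core (resid ℓ) (prime_ell ℓ) (resid_eq_zero_iff_dvd ℓ) (jqModC (Rl ℓ)) ?_
    (fun i => coeffMap (Int.castRingHom (Rl ℓ)) (b i)) hintb ?_ y ?_ ?_
  · rw [coeffMap_jqModC]
    exact transcendental_jqModC _
  · intro g hg
    apply hindep g
    rw [← hg, coeffMap_jqModC]
    refine Finset.sum_congr rfl fun i _ => ?_
    rw [coeffMap_coeffMap, show (resid ℓ).comp (Int.castRingHom (Rl ℓ)) =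
      Int.castRingHom (ZMod ℓ) from RingHom.ext_int _ _]
  · obtain ⟨w, u, hw, hwu⟩ := hspan _ ((ℓ : ↥(modularFunctionFieldFull N))⁻¹ * x).2
    refine ⟨w.map (Int.castRingHom (Rl ℓ)), fun i => (u i).map (Int.castRingHom (Rl ℓ)), ?_, ?_⟩
    · rwa [Ne, Polynomial.map_eq_zero_iff (RingHom.injective_int _)]
    · apply incl_injective ℓ
      rw [map_mul, map_sum, incl_evP_map, ← hyx]
      refine hwu.trans (Finset.sum_congr rfl fun i _ => ?_)
      rw [map_mul, incl_evP_map, coeffMap_coeffMap,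
        show (GaloisRep.ratLocalizedAt ℓ).subtype.comp (Int.castRingHom (Rl ℓ)) =
          Int.castRingHom ℚ from RingHom.ext_int _ _]
  · rw [← isIntegralElem_comp_iff _ _ (incl_injective ℓ)]
    have : incl ℓ (((ℓ : ℕ) : Rl ℓ) • y) = ((modularFunctionFieldFull N).val :
      ↥(modularFunctionFieldFull N) →+* LaurentSeries ℚ) x := by
      rw [← HahnSeries.C_mul_eq_smul, map_natCast, map_mul, map_natCast, hy,
        mul_inv_cancel_left₀ hℓ]
      rfl
    rw [this]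
    exact hx

end Charts

end

end Fermat.Agent.S28
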