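import Fermat.Agent.S28.DescBasic

set_option autoImplicit false

namespace Fermat.Agent.S28

open ModularCurve Polynomial

noncomputable section

/-- Elements of `ℚ(S)` are `ℤ[j]`-fractions of `ℤ[j]`-combinations of `1, V, …, V^{n-1}`, as soon
as `V` is a root of a monic polynomial of degree `n` over `ℚ[j]` and the generators `s ∈ S` are
quotients of polynomial expressions in `j, V`. -/
theorem exists_repr_of_mem_adjoin (j V : LaurentSeries ℚ)
    (hj : Function.Injective (evP ℤ j))
    (W₀ : ℚ[X][X]) (hW₀ : W₀.Monic) (hroot : W₀.eval₂ (evP ℚ j) V = 0)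
    (n : ℕ) (hn : n = W₀.natDegree)
    (S : Set (LaurentSeries ℚ))
    (hS : ∀ s ∈ S, ∃ G P : ℚ[X][X], P.eval₂ (evP ℚ j) V ≠ 0 ∧
      G.eval₂ (evP ℚ j) V = s * P.eval₂ (evP ℚ j) V)
    (y : LaurentSeries ℚ) (hy : y ∈ IntermediateField.adjoin ℚ S) :
    ∃ (w : ℤ[X]) (u : Fin n → ℤ[X]), w ≠ 0 ∧
      evP ℤ j w * y = ∑ i, evP ℤ j (u i) * V ^ (i : ℕ) := by
  let K := FractionRing ℤ[X]
  let ψ : K →+* LaurentSeries ℚ := IsFractionRing.lift hj
  have hψ : ∀ p : ℤ[X], ψ (algebraMap ℤ[X] K p) = evP ℤ j p :=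
    fun p => IsFractionRing.lift_algebraMap hj p
  have : CharZero K := charZero_of_injective_algebraMap (IsFractionRing.injective ℤ[X] K)
  let θ : ℚ[X] →+* K := Polynomial.eval₂RingHom (algebraMap ℚ K) (algebraMap ℤ[X] K X)
  have hθ : ψ.comp θ = evP ℚ j := by
    refine Polynomial.ringHom_ext' (Subsingleton.elim _ _) ?_
    show ψ (θ X) = evP ℚ j X
    have h1 : θ X = algebraMap ℤ[X] K X := by simp [θ]
    rw [h1, hψ]
    simp [evP]
  let _ : Algebra K (LaurentSeries ℚ) := ψ.toAlgebra
  have haeval : ∀ P : ℚ[X][X], aeval V (P.map θ) = P.eval₂ (evP ℚ j) V := by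
    intro P
    rw [aeval_def, eval₂_map]
    show eval₂ (ψ.comp θ) V P = _
    rw [hθ]
  have hint : IsIntegral K V := ⟨W₀.map θ, hW₀.map θ, by
    have := haeval W₀
    rw [aeval_def] at this
    rw [this, hroot]⟩
  -- polynomial expressions lie in `K(V)`
  have hA : ∀ P : ℚ[X][X], P.eval₂ (evP ℚ j) V ∈ IntermediateField.adjoin K {V} := by
    intro P
    rw [← haeval]
    exact IntermediateField.algebra_adjoin_le_adjoin K {V}
      (Polynomial.aeval_mem_adjoin_singleton K V)
  have hC : y ∈ IntermediateField.adjoin K {V} := by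
    have hle : Subfield.closure (Set.range (algebraMap ℚ (LaurentSeries ℚ)) ∪ S)
        ≤ (IntermediateField.adjoin K {V}).toSubfield := by
      rw [Subfield.closure_le]
      rintro s (⟨r, rfl⟩ | hs)
      · have h := hA (C (C r))
        rw [eval₂_C] at h
        have h2 : evP ℚ j (C r) = algebraMap ℚ (LaurentSeries ℚ) r := by simp [evP]
        rw [h2] at h
        exact h
      · obtain ⟨G, P, hP, hG⟩ := hS s hs
        have : s = G.eval₂ (evP ℚ j) V * (P.eval₂ (evP ℚ j) V)⁻¹ := by
          rw [hG, mul_assoc, mul_inv_cancel₀ hP, mul_one]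
        show s ∈ IntermediateField.adjoin K {V}
        rw [this]
        exact mul_mem (hA G) (inv_mem (hA P))
    exact hle hy
  -- write `y` as a polynomial of degree `< n` in `V`
  have hD : y ∈ (IntermediateField.adjoin K {V}).toSubalgebra := hC
  rw [IntermediateField.adjoin_simple_toSubalgebra_of_isAlgebraic hint.isAlgebraic,
    Algebra.adjoin_singleton_eq_range_aeval] at hD
  obtain ⟨p, hp⟩ := hD
  have hp : aeval V p = y := hp
  have hWK : (W₀.map θ).Monic := hW₀.map θ
  have hrootK : aeval V (W₀.map θ) = 0 := by rw [haeval, hroot]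
  have hne1 : W₀.map θ ≠ 1 := by
    intro h
    rw [h, map_one] at hrootK
    exact one_ne_zero hrootK
  have hdeg : (p %ₘ W₀.map θ).natDegree < n := by
    have := natDegree_modByMonic_lt p hWK hne1
    rwa [hW₀.natDegree_map, ← hn] at this
  have hy' : y = ∑ i : Fin n, ψ ((p %ₘ W₀.map θ).coeff i) * V ^ (i : ℕ) := by
    rw [← hp, ← Polynomial.aeval_modByMonic_eq_self_of_root hrootK,
      Polynomial.aeval_eq_sum_range' hdeg, Finset.sum_range]
    refine Finset.sum_congr rfl fun i _ => ?_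
    rw [Algebra.smul_def]
    rfl
  obtain ⟨⟨w, hw⟩, hwu⟩ := IsLocalization.exist_integer_multiples (nonZeroDivisors ℤ[X])
    (Finset.univ : Finset (Fin n)) (fun i => (p %ₘ W₀.map θ).coeff i)
  choose u hu using fun i => hwu i (Finset.mem_univ i)
  refine ⟨w, u, nonZeroDivisors.ne_zero hw, ?_⟩
  rw [hy', Finset.mul_sum]
  refine Finset.sum_congr rfl fun i _ => ?_
  rw [← hψ, ← hψ, hu i, ← mul_assoc, ← map_mul]
  congr 2
  exact (Algebra.smul_def w _).symm

end

end Fermat.Agent.S28
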