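import Fermat.Agent.S28.AnalyticData
import Fermat.Agent.S28.Basis
import Fermat.Agent.S28.NP
import Fermat.Agent.S28.DescModL
import Fermat.Agent.S28.DescSpan

set_option autoImplicit false

namespace Fermat.Agent.S28

open ModularCurve Polynomial

noncomputable section

theorem map_mapRingHom_comp {A B C' : Type*} [CommRing A] [CommRing B] [CommRing C']
    (f : B →+* C') (g : A →+* B) (P : A[X][X]) :
    (P.map (Polynomial.mapRingHom g)).map (Polynomial.mapRingHom f)
      = P.map (Polynomial.mapRingHom (f.comp g)) := by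
  rw [Polynomial.map_map]
  congr 1
  ext <;> simp

theorem evP_int_jq_injective : Function.Injective (evP ℤ jq) := by
  have h : ∀ p : ℤ[X], evP ℤ jq p = evP ℚ jq (p.map (Int.castRingHom ℚ)) := fun p =>
    map_evP (Int.castRingHom ℚ) (RingHom.id (LaurentSeries ℚ)) (fun a => by simp) jq p
  intro p q hpq
  rw [h, h] at hpq
  exact Polynomial.map_injective _ Int.cast_injective
    (evP_injective_of_pole jq (order_jqModC_neg ℚ) hpq)

theorem isIntegralElem_pow {A B : Type*} [CommRing A] [CommRing B] (f : A →+* B) {x : B}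
    (hx : f.IsIntegralElem x) (n : ℕ) : f.IsIntegralElem (x ^ n) := by
  let _ : Algebra A B := f.toAlgebra
  exact IsIntegral.pow (R := A) hx n

/-- Route (A): descent of the analytic data to `ℤ_(ℓ)` and reduction mod `ℓ`.
The family is `b i = V ^ i`, `i < n = natDegree W`. -/
theorem hasBasisMod_of_analyticData (N : ℕ) [NeZero N] (ℓ : ℕ) [Fact ℓ.Prime] (hℓN : ¬ ℓ ∣ N)
    (D : AnalyticData N) : HasBasisMod N ℓ := by
  obtain ⟨W₀, hW, hW₀m, hW₀root, hder, hG⟩ := exists_rational_model D
  obtain ⟨O, κ, _, _, res, hN, hζ, hOQ⟩ := exists_good_subring ℓ N hℓN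
  let sQ : Rl ℓ →+* ℚ := (GaloisRep.ratLocalizedAt ℓ).subtype
  have hsQ : Function.Injective sQ := Subtype.val_injective
  -- the model over `ℤ_(ℓ)`
  obtain ⟨W₁, hW₁⟩ : ∃ W₁ : (Rl ℓ)[X][X], W₁.map (Polynomial.mapRingHom sQ) = W₀ := by
    apply exists_map_mapRingHom_eq
    intro b a
    have h1 := coeff_W_mem D O hN hζ b a
    rw [hW, coeff_map, coe_mapRingHom, coeff_map] at h1
    exact ⟨⟨_, (hOQ _).mp h1⟩, rfl⟩
  have hW₁m : W₁.Monic := by
    have hinj : Function.Injective (Polynomial.mapRingHom sQ) := Polynomial.map_injective sQ hsQ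
    apply Polynomial.monic_of_injective hinj
    rw [hW₁]
    exact hW₀m
  have hroot₁ : W₁.eval₂ (evP (Rl ℓ) (jqModC (Rl ℓ))) (coeffMap (Int.castRingHom (Rl ℓ)) D.V)
      = 0 := by
    apply coeffMap_injective sQ hsQ
    rw [map_eval₂_evP sQ (coeffMap sQ) (coeffMap_algebraMap' sQ sQ fun _ => rfl), hW₁,
      coeffMap_jqModC, coeffMap_coeffMap, coeffMap_congr (RingHom.ext_int _ (Int.castRingHom ℚ)),
      map_zero]
    exact hW₀root
  have hn₀ : W₁.natDegree = W₀.natDegree := by
    rw [← hW₁, hW₁m.natDegree_map]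
  refine ⟨W₁.natDegree, fun i => D.V ^ (i : ℕ), ?_, ?_, ?_⟩
  · -- integrality
    intro i
    rw [map_pow]
    exact isIntegralElem_pow _ ⟨W₁, hW₁m, hroot₁⟩ _
  · -- span
    intro y hy
    obtain ⟨w, u, hw, hwu⟩ := exists_repr_of_mem_adjoin jq (coeffMap (Int.castRingHom ℚ) D.V)
      evP_int_jq_injective W₀ hW₀m hW₀root W₁.natDegree hn₀ (divisorExpansions N) (by
        rintro s ⟨d, hd0, hd, rfl⟩
        obtain ⟨G₀, hG₀⟩ := hG d hd
        exact ⟨G₀, derivative W₀, hder, hG₀⟩) y hy
    refine ⟨w, u, hw, ?_⟩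
    rw [hwu]
    refine Finset.sum_congr rfl fun i _ => ?_
    rw [map_pow]
  · -- independence mod `ℓ`
    let _ : Algebra (ZMod ℓ) κ := ZMod.algebra κ ℓ
    let gO : Rl ℓ →+* O := ((algebraMap ℚ ℂ).comp sQ).codRestrict O (fun x => (hOQ _).mpr x.2)
    have hgO : O.subtype.comp gO = (algebraMap ℚ ℂ).comp sQ := rfl
    obtain ⟨Vs', hVs', hfacC⟩ := exists_lift_factorisation D O hN hζ
    have hfacO : (W₁.map (Polynomial.mapRingHom gO)).map (evP O (JN O N))
        = (X - C (iotaN O N D.V)) * (Vs'.map fun v => X - C v).prod := by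
      apply Polynomial.map_injective (coeffMap O.subtype)
        (coeffMap_injective _ Subtype.val_injective)
      rw [← hfacC, map_map_evP O.subtype (coeffMap O.subtype)
        (coeffMap_algebraMap' O.subtype O.subtype fun _ => rfl), coeffMap_JN,
        map_mapRingHom_comp, hgO, ← map_mapRingHom_comp, hW₁, ← hW]
      rfl
    have hfacκ : (W₁.map (Polynomial.mapRingHom (resid ℓ))).map (evP (ZMod ℓ) (JN κ N))
        = (X - C (iotaN κ N D.V)) * ((Vs'.map (coeffMap res)).map fun v => X - C v).prod := by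
      have h1 := congrArg (Polynomial.map (coeffMap res)) hfacO
      rw [map_map_evP res (coeffMap res) (coeffMap_algebraMap' res res fun _ => rfl), coeffMap_JN,
        map_mapRingHom_comp] at h1
      have h2 := map_map_evP (algebraMap (ZMod ℓ) κ) (RingHom.id (LaurentSeries κ))
        (fun a => by
          rw [algebraMap_laurent_eq_single, algebraMap_laurent_eq_single]
          rfl) (JN κ N) (W₁.map (Polynomial.mapRingHom (resid ℓ)))
      rw [Polynomial.map_id, map_mapRingHom_comp,
        ringHom_Rl_ext' ℓ ((algebraMap (ZMod ℓ) κ).comp (resid ℓ)) (res.comp gO),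
        RingHom.id_apply] at h2
      rw [h2, h1, Polynomial.map_mul, Polynomial.map_sub, Polynomial.map_X, Polynomial.map_C,
        Polynomial.map_multiset_prod, Multiset.map_map, coeffMap_iotaN, Multiset.map_map]
      congr 2
      refine Multiset.map_congr rfl fun v _ => ?_
      simp
    have hvsκ : ∀ v ∈ Vs'.map (coeffMap res), v ≠ 0 ∧ ∀ m : ℤ, m ≤ 0 → v.coeff m = 0 := by
      intro v hv
      obtain ⟨v', hv', rfl⟩ := Multiset.mem_map.mp hv
      have hvD : coeffMap O.subtype v' ∈ D.Vs := hVs' ▸ Multiset.mem_map_of_mem _ hv'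
      constructor
      · obtain ⟨m, hm0, hminv⟩ := D.hunit O hN hζ _ hvD
        intro h0
        have h1 : res (v'.coeff m) = 0 := by
          rw [← coeffMap_coeff, h0]
          rfl
        have h2 : v'.coeff m * ⟨_, hminv⟩ = 1 := Subtype.ext (mul_inv_cancel₀ hm0)
        have h3 := congrArg res h2
        rw [map_mul, h1, zero_mul, map_one] at h3
        exact zero_ne_one h3
      · intro m hm
        have h1 : v'.coeff m = 0 := Subtype.ext (D.hpos _ hvD m hm)
        rw [coeffMap_coeff, h1, map_zero]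
    have hWbm : (W₁.map (Polynomial.mapRingHom (resid ℓ))).Monic := hW₁m.map _
    have hirr := irreducible_of_roots (k := ZMod ℓ) (κ := κ) (JN κ N)
      (exists_coeff_ne_zero_of_pole _ (order_qExpand_jqModC_neg κ N))
      (W₁.map (Polynomial.mapRingHom (resid ℓ))) hWbm (iotaN κ N D.V) (Vs'.map (coeffMap res))
      hvsκ hfacκ
    have hrootb : (W₁.map (Polynomial.mapRingHom (resid ℓ))).eval₂
        (evP (ZMod ℓ) (jqModC (ZMod ℓ))) (coeffMap (Int.castRingHom (ZMod ℓ)) D.V) = 0 := by
      have h := congrArg (coeffMap (resid ℓ)) hroot₁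
      rw [map_eval₂_evP (resid ℓ) (coeffMap (resid ℓ))
        (coeffMap_algebraMap' (resid ℓ) (resid ℓ) fun _ => rfl), coeffMap_jqModC,
        coeffMap_coeffMap, coeffMap_congr (RingHom.ext_int _ (Int.castRingHom (ZMod ℓ))),
        map_zero] at h
      exact h
    intro u hu
    refine eq_zero_of_sum_mul_pow_eq_zero (evP (ZMod ℓ) (jqModC (ZMod ℓ)))
      (evP_injective_of_pole _ (order_jqModC_neg _)) _ hWbm hirr _ hrootb _
      (hW₁m.natDegree_map _).symm u ?_
    rw [← hu]
    refine Finset.sum_congr rfl fun i _ => ?_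
    rw [map_pow]

end

end Fermat.Agent.S28
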