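import Fermat.Agent.S28.Defs
import Fermat.Prelude.Thm_ModularCurve_coeffMap_qExpand
import Fermat.Prelude.Thm_ModularCurve_coeff_jqModC_neg_one
import Fermat.Prelude.Thm_ModularCurve_coeff_jqModC_pow_of_lt
import Fermat.Prelude.Thm_ModularCurve_coeff_jqModC_pow_self

set_option autoImplicit false

namespace Fermat.Agent.S28

open ModularCurve Polynomial

noncomputable section

/-- the structure map `k → κ((t))` is `a ↦ a t^0`. -/
theorem algebraMap_laurent_eq_single {k κ : Type*} [CommRing k] [CommRing κ] [Algebra k κ]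
    (a : k) : algebraMap k (LaurentSeries κ) a = HahnSeries.single 0 (algebraMap k κ a) := by
  rw [HahnSeries.algebraMap_apply', PowerSeries.algebraMap_apply, HahnSeries.ofPowerSeries_C]
  rfl

/-- naturality of `evP`. -/
theorem evP_comp {A B LA LB : Type*} [CommRing A] [CommRing B] [CommRing LA] [CommRing LB]
    [Algebra A LA] [Algebra B LB] (f : A →+* B) (Ψ : LA →+* LB)
    (hΨ : ∀ a, Ψ (algebraMap A LA a) = algebraMap B LB (f a)) (x : LA) :
    Ψ.comp (evP A x) = (evP B (Ψ x)).comp (Polynomial.mapRingHom f) := by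
  refine Polynomial.ringHom_ext (fun a => ?_) ?_
  · simp [evP, hΨ]
  · simp [evP]

theorem map_evP {A B LA LB : Type*} [CommRing A] [CommRing B] [CommRing LA] [CommRing LB]
    [Algebra A LA] [Algebra B LB] (f : A →+* B) (Ψ : LA →+* LB)
    (hΨ : ∀ a, Ψ (algebraMap A LA a) = algebraMap B LB (f a)) (x : LA) (p : A[X]) :
    Ψ (evP A x p) = evP B (Ψ x) (p.map f) :=
  congrArg (fun g : A[X] →+* LB => g p) (evP_comp f Ψ hΨ x)

theorem map_eval₂_evP {A B LA LB : Type*} [CommRing A] [CommRing B] [CommRing LA] [CommRing LB]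
    [Algebra A LA] [Algebra B LB] (f : A →+* B) (Ψ : LA →+* LB)
    (hΨ : ∀ a, Ψ (algebraMap A LA a) = algebraMap B LB (f a)) (x y : LA) (P : A[X][X]) :
    Ψ (P.eval₂ (evP A x) y)
      = (P.map (Polynomial.mapRingHom f)).eval₂ (evP B (Ψ x)) (Ψ y) := by
  rw [Polynomial.hom_eval₂, evP_comp f Ψ hΨ, Polynomial.eval₂_map]

theorem map_map_evP {A B LA LB : Type*} [CommRing A] [CommRing B] [CommRing LA] [CommRing LB]
    [Algebra A LA] [Algebra B LB] (f : A →+* B) (Ψ : LA →+* LB)
    (hΨ : ∀ a, Ψ (algebraMap A LA a) = algebraMap B LB (f a)) (x : LA) (P : A[X][X]) :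
    (P.map (evP A x)).map Ψ
      = (P.map (Polynomial.mapRingHom f)).map (evP B (Ψ x)) := by
  rw [Polynomial.map_map, evP_comp f Ψ hΨ, Polynomial.map_map]

/-- `coeffMap` is compatible with the structure maps. -/
theorem coeffMap_algebraMap' {k κ k' κ' : Type*} [CommRing k] [CommRing κ] [Algebra k κ]
    [CommRing k'] [CommRing κ'] [Algebra k' κ'] (f : k →+* k') (g : κ →+* κ')
    (hfg : ∀ a, g (algebraMap k κ a) = algebraMap k' κ' (f a)) (a : k) :
    coeffMap g (algebraMap k (LaurentSeries κ) a) = algebraMap k' (LaurentSeries κ') (f a) := by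
  rw [algebraMap_laurent_eq_single, algebraMap_laurent_eq_single, coeffMap_single, hfg]

theorem qExpand_algebraMap {k κ : Type*} [CommRing k] [CommRing κ] [Algebra k κ]
    (N : ℕ) [NeZero N] (a : k) :
    qExpand κ N (algebraMap k (LaurentSeries κ) a) = algebraMap k (LaurentSeries κ) a := by
  rw [algebraMap_laurent_eq_single, qExpand_single, mul_zero]

theorem coeffMap_injective {A B : Type*} [CommRing A] [CommRing B] (f : A →+* B)
    (hf : Function.Injective f) : Function.Injective (coeffMap f) := by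
  intro x y h
  ext k
  apply hf
  rw [← coeffMap_coeff, ← coeffMap_coeff, h]

theorem coeffMap_jqModC {A B : Type*} [CommRing A] [CommRing B] (f : A →+* B) :
    coeffMap f (jqModC A) = jqModC B :=
  map_jqModC f

theorem order_jqModC_neg (κ : Type*) [Field κ] : (jqModC κ).order < 0 := by
  have h : (jqModC κ).coeff (-1) ≠ 0 := by
    rw [coeff_jqModC_neg_one]
    exact one_ne_zero
  have := HahnSeries.order_le_of_coeff_ne_zero h
  omega

theorem order_qExpand_jqModC_neg (κ : Type*) [Field κ] (N : ℕ) [NeZero N] :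
    (qExpand κ N (jqModC κ)).order < 0 := by
  have h : (qExpand κ N (jqModC κ)).coeff ((N : ℤ) * (-1)) ≠ 0 := by
    rw [qExpand_coeff_mul, coeff_jqModC_neg_one]
    exact one_ne_zero
  have h1 := HahnSeries.order_le_of_coeff_ne_zero h
  have h2 : (0 : ℤ) < N := by exact_mod_cast Nat.pos_of_ne_zero (NeZero.ne N)
  omega

/-- a Laurent series all of whose coefficients lie in a subring comes from a Laurent series over
the subring. -/
theorem exists_coeffMap_subtype_eq {A : Type*} [CommRing A] (O : Subring A)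
    (x : LaurentSeries A) (hx : ∀ m, x.coeff m ∈ O) :
    ∃ x' : LaurentSeries O, coeffMap O.subtype x' = x := by
  refine ⟨⟨fun m => ⟨x.coeff m, hx m⟩, ?_⟩, ?_⟩
  · refine x.isPWO_support.mono ?_
    intro m hm
    simp only [Function.mem_support, ne_eq] at hm ⊢
    intro h
    exact hm (Subtype.ext h)
  · ext m
    rfl

theorem exists_multiset_map_eq {α β : Type*} (f : α → β) (s : Multiset β)
    (hs : ∀ b ∈ s, ∃ a, f a = b) : ∃ s' : Multiset α, s'.map f = s := by
  induction s using Multiset.induction_on with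
  | empty => exact ⟨0, rfl⟩
  | cons b s ih =>
    obtain ⟨s', hs'⟩ := ih fun c hc => hs c (Multiset.mem_cons_of_mem hc)
    obtain ⟨a, ha⟩ := hs b (Multiset.mem_cons_self b s)
    exact ⟨a ::ₘ s', by rw [Multiset.map_cons, ha, hs']⟩

end

end Fermat.Agent.S28
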