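import Fermat.Agent.S28.Coprime
import Fermat.Agent.S28.DescBasic

set_option autoImplicit false

namespace Fermat.Agent.S28

open ModularCurve Polynomial

noncomputable section

theorem map_eq_zero_iff_C_dvd {R k : Type*} [CommRing R] [CommRing k] (red : R →+* k) {ϖ : R}
    (hred : ∀ r, red r = 0 ↔ ϖ ∣ r) (p : R[X]) : p.map red = 0 ↔ C ϖ ∣ p := by
  rw [Polynomial.C_dvd_iff_dvd_coeff, Polynomial.ext_iff]
  refine forall_congr' fun i => ?_
  rw [coeff_map, coeff_zero, hred]

theorem isIntegralElem_sum {A B : Type*} [CommRing A] [CommRing B] (f : A →+* B) {ι : Type*}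
    (s : Finset ι) (x : ι → B) (hx : ∀ i ∈ s, f.IsIntegralElem (x i)) :
    f.IsIntegralElem (∑ i ∈ s, x i) := by
  let _ : Algebra A B := f.toAlgebra
  exact IsIntegral.sum (R := A) (f := x) (s := s) hx

section

variable {R k : Type*} [CommRing R] [Field k]
    (red : R →+* k) {ϖ : R} (hϖ : Prime ϖ) (hred : ∀ r, red r = 0 ↔ ϖ ∣ r)
    (J : LaurentSeries R)

theorem coeffMap_red_evP (p : R[X]) :
    coeffMap red (evP R J p) = evP k (coeffMap red J) (p.map red) :=
  map_evP red (coeffMap red) (coeffMap_algebraMap' red red fun _ => rfl) J p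

include hϖ in
theorem evP_C_ne_zero : evP R J (C ϖ) ≠ 0 := by
  have h : evP R J (C ϖ) = HahnSeries.single 0 ϖ := by
    show aeval J (C ϖ) = _
    rw [aeval_C, algebraMap_laurent_eq_single]
    rfl
  rw [h]
  exact HahnSeries.single_ne_zero hϖ.ne_zero

include hϖ hred in
/-- dividing out powers of `ϖ` from a linear relation. -/
theorem exists_relation_of_pow_mul [IsDomain R] {ι : Type*} [Fintype ι]
    (m : ι → LaurentSeries R)
    (hindep : ∀ g : ι → k[X],
      ∑ i, evP k (coeffMap red J) (g i) * coeffMap red (m i) = 0 → g = 0)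
    (y : LaurentSeries R) (c' : R[X]) :
    ∀ (n : ℕ) (g : ι → R[X]), evP R J (C ϖ ^ n * c') * y = ∑ i, evP R J (g i) * m i →
      ∃ g' : ι → R[X], evP R J c' * y = ∑ i, evP R J (g' i) * m i := by
  intro n
  induction n with
  | zero =>
    intro g hg
    exact ⟨g, by simpa using hg⟩
  | succ n ih =>
    intro g hg
    have h1 := congrArg (coeffMap red) hg
    rw [map_mul, coeffMap_red_evP, map_sum] at h1
    have h2 : (C ϖ ^ (n + 1) * c').map red = 0 := by
      rw [map_eq_zero_iff_C_dvd red hred, pow_succ, mul_assoc, mul_comm, mul_assoc]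
      exact Dvd.intro _ rfl
    rw [h2, map_zero, zero_mul] at h1
    have h3 : (fun i => (g i).map red) = 0 := by
      apply hindep
      rw [h1]
      refine Finset.sum_congr rfl fun i _ => ?_
      rw [map_mul, coeffMap_red_evP]
    have h4 : ∀ i, C ϖ ∣ g i := fun i =>
      (map_eq_zero_iff_C_dvd red hred _).mp (congrFun h3 i)
    choose g₁ hg₁ using h4
    apply ih g₁
    apply mul_left_cancel₀ (evP_C_ne_zero hϖ J)
    rw [← mul_assoc, ← map_mul, Finset.mul_sum]
    have h5 : C ϖ * (C ϖ ^ n * c') = C ϖ ^ (n + 1) * c' := by ring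
    rw [h5, hg]
    refine Finset.sum_congr rfl fun i _ => ?_
    rw [← mul_assoc, ← map_mul, ← hg₁ i]

end

/-- q-expansion principle, core form (pure algebra inside `R((q))`).
`R` a UFD, `ϖ` prime, `red : R → k` with kernel `(ϖ)`.  `m i ∈ R((q))` are integral over `R[J]`,
their reductions are linearly independent over `k[J mod ϖ]`, and `y` is a `Frac R[J]`-linear
combination of them.  If `ϖ y` is integral over `R[J]`, so is `y`. -/
theorem qep_core {R k : Type*} [CommRing R] [IsDomain R] [UniqueFactorizationMonoid R] [Field k]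
    (red : R →+* k) {ϖ : R} (hϖ : Prime ϖ) (hred : ∀ r, red r = 0 ↔ ϖ ∣ r)
    (J : LaurentSeries R) (hJ : Transcendental k (coeffMap red J))
    {ι : Type*} [Fintype ι] (m : ι → LaurentSeries R)
    (hm : ∀ i, (evP R J).IsIntegralElem (m i))
    (hindep : ∀ g : ι → k[X],
      ∑ i, evP k (coeffMap red J) (g i) * coeffMap red (m i) = 0 → g = 0)
    (y : LaurentSeries R)
    (hspan : ∃ (c : R[X]) (g : ι → R[X]), c ≠ 0 ∧
      evP R J c * y = ∑ i, evP R J (g i) * m i)
    (hint : (evP R J).IsIntegralElem (ϖ • y)) :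
    (evP R J).IsIntegralElem y := by
  have hPi : Prime (C ϖ : R[X]) := Polynomial.prime_C_iff.mpr hϖ
  -- `evP R J` is injective
  have hinj : Function.Injective (evP R J) := by
    rw [injective_iff_map_eq_zero]
    intro p hp
    by_contra hp0
    obtain ⟨n, p', hp', rfl⟩ := WfDvdMonoid.max_power_factor hp0 hPi.irreducible
    rw [map_mul, map_pow] at hp
    have h1 : evP R J p' = 0 :=
      (mul_eq_zero.mp hp).resolve_left (pow_ne_zero _ (evP_C_ne_zero hϖ J))
    have h2 := congrArg (coeffMap red) h1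
    rw [coeffMap_red_evP, map_zero] at h2
    have h3 : p'.map red = 0 := by
      by_contra h
      exact hJ ⟨_, h, h2⟩
    exact hp' ((map_eq_zero_iff_C_dvd red hred _).mp h3)
  obtain ⟨c, g, hc, hcg⟩ := hspan
  obtain ⟨n, c', hc', rfl⟩ := WfDvdMonoid.max_power_factor hc hPi.irreducible
  obtain ⟨g', hg'⟩ := exists_relation_of_pow_mul red hϖ hred J m hindep y c' n g hcg
  have hint2 : (evP R J).IsIntegralElem (evP R J c' * y) := by
    rw [hg']
    exact isIntegralElem_sum _ _ _ fun i _ =>
      RingHom.IsIntegralElem.mul _ ((evP R J).isIntegralElem_map) (hm i)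
  have hint1 : (evP R J).IsIntegralElem (evP R J (C ϖ) * y) := by
    have h : evP R J (C ϖ) * y = ϖ • y := by
      have h : evP R J (C ϖ) = HahnSeries.single 0 ϖ := by
        show aeval J (C ϖ) = _
        rw [aeval_C, algebraMap_laurent_eq_single]
        rfl
      rw [h, HahnSeries.single_zero_mul_eq_smul]
    rw [h]
    exact hint
  -- pass to the field `Frac(R)((q))`
  let emb : LaurentSeries R →+* LaurentSeries (FractionRing R) :=
    coeffMap (algebraMap R (FractionRing R))
  have hemb : Function.Injective emb :=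
    coeffMap_injective _ (IsFractionRing.injective R (FractionRing R))
  have up : ∀ z, (evP R J).IsIntegralElem z → (emb.comp (evP R J)).IsIntegralElem (emb z) := by
    rintro z ⟨p, hp, hp0⟩
    exact ⟨p, hp, by rw [← Polynomial.hom_eval₂, hp0, map_zero]⟩
  have key := isIntegralElem_of_mul_of_prime (emb.comp (evP R J)) (hemb.comp hinj) hPi hc'
    (y := emb y) (by simpa using up _ hint1) (by simpa using up _ hint2)
  obtain ⟨p, hp, hp0⟩ := key
  refine ⟨p, hp, hemb ?_⟩
  rw [Polynomial.hom_eval₂, hp0, map_zero]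

end

end Fermat.Agent.S28
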