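import Fermat.Agent.S28.Glue
import Fermat.Agent.S28.Reduction
import Fermat.Agent.S28.TensorDomain

set_option autoImplicit false
open AlgebraicGeometry CategoryTheory CategoryTheory.Limits ModularCurve ModularCurve.IgusaScheme
open TensorProduct

noncomputable section

namespace Fermat.Agent.S28

theorem isDomain_chart_tensor (N : ℕ) [NeZero N] (ℓ : ℕ) [Fact ℓ.Prime]
    (K : Type) [Field K] [CharP K ℓ] [Algebra ↥(GaloisRep.ratLocalizedAt ℓ) K]
    (S : Set ↥(modularFunctionFieldFull N))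
    (hS : ∀ s ∈ S, (s : LaurentSeries ℚ) ∈ (incl ℓ).range) (h : QEP ℓ N S) :
    IsDomain ((chartAlg N ℓ S) ⊗[↥(GaloisRep.ratLocalizedAt ℓ)] K) :=
  isDomain_tensor_of_ker_eq_span ℓ (chartAlg N ℓ S) (chartRed ℓ N S hS) K (ker_chartRed ℓ N S hS h)

/-- The statement of S28, assuming the `q`-expansion principle for the three charts. -/
theorem result_of_QEP (N : ℕ) [NeZero N] (ℓ : ℕ) [Fact ℓ.Prime]
    (K : Type) [Field K] [CharP K ℓ] [Algebra ↥(GaloisRep.ratLocalizedAt ℓ) K]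
    (hFin : QEP ℓ N {jFull N}) (hInf : QEP ℓ N {(jFull N)⁻¹})
    (hMid : QEP ℓ N {jFull N, (jFull N)⁻¹}) :
    IsIntegral ↑(pullback (igusaTo N ℓ)
      (Spec.map (CommRingCat.ofHom (algebraMap ↥(GaloisRep.ratLocalizedAt ℓ) K)))) :=
  isIntegral_pullback_of_isDomain N ℓ K
    (isDomain_chart_tensor N ℓ K _ (hS_fin ℓ N) hFin)
    (isDomain_chart_tensor N ℓ K _ (hS_inf ℓ N) hInf)
    (isDomain_chart_tensor N ℓ K _ (hS_mid ℓ N) hMid).toNontrivial

end Fermat.Agent.S28
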