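import Fermat.Agent.S28.Defs

set_option autoImplicit false

namespace Fermat.Agent.S28

open ModularCurve Polynomial

noncomputable section

/-- `j(t^N)` as a complex Laurent series in `t = q^{1/N}`. -/
def JC (N : ℕ) [NeZero N] : LaurentSeries ℂ := qExpand ℂ N (jqModC ℂ)

/-- `ℤ((q)) → ℂ((t))`, `q ↦ t^N`. -/
def iotaC (N : ℕ) [NeZero N] : LaurentSeries ℤ →+* LaurentSeries ℂ :=
  (qExpand ℂ N).comp (coeffMap (Int.castRingHom ℂ))

/-- The output of the analytic part: a modular unit `V` on `X₀(N)` with integral `q`-expansion, the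
expansions `Vs` of its other conjugates over `ℂ(j)` (all vanishing at `t = 0`, with coefficients in
`ℤ[1/N, ζ_N]` and unit leading coefficient), its characteristic polynomial `W` over `ℂ[j]`, and the
Lagrange interpolation polynomials `G d` expressing `j(q^d)` through `V`. -/
structure AnalyticData (N : ℕ) [NeZero N] where
  V : LaurentSeries ℤ
  Vs : Multiset (LaurentSeries ℂ)
  W : ℂ[X][X]
  G : ℕ → ℂ[X][X]
  hW : W.map (evP ℂ (JC N)) = (X - C (iotaC N V)) * (Vs.map fun v => X - C v).prod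
  hpos : ∀ v ∈ Vs, ∀ m : ℤ, m ≤ 0 → v.coeff m = 0
  hint : ∀ O : Subring ℂ, ((N : ℂ))⁻¹ ∈ O → (∀ ζ : ℂ, ζ ^ N = 1 → ζ ∈ O) →
    ∀ v ∈ Vs, ∀ m : ℤ, v.coeff m ∈ O
  hunit : ∀ O : Subring ℂ, ((N : ℂ))⁻¹ ∈ O → (∀ ζ : ℂ, ζ ^ N = 1 → ζ ∈ O) →
    ∀ v ∈ Vs, ∃ m : ℤ, v.coeff m ≠ 0 ∧ (v.coeff m)⁻¹ ∈ O
  hG : ∀ (d : ℕ) [NeZero d], d ∣ N →
    (G d).eval₂ (evP ℂ (JC N)) (iotaC N V) =
      qExpand ℂ N (qExpand ℂ d (jqModC ℂ)) * (Vs.map fun v => iotaC N V - v).prod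

end

end Fermat.Agent.S28
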