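import Fermat.Agent.S28.Defs

set_option autoImplicit false

namespace Fermat.Agent.S28

open Polynomial

/-- algebra form of `isIntegralElem_of_mul_of_prime`. -/
theorem isIntegral_of_smul_of_prime {P L : Type*} [CommRing P] [IsDomain P]
    [IsIntegrallyClosed P] [Field L] [Algebra P L] (hinj : Function.Injective (algebraMap P L))
    {π c : P} (hπ : Prime π) (hc : ¬ π ∣ c) {y : L}
    (h1 : IsIntegral P (π • y)) (h2 : IsIntegral P (c • y)) : IsIntegral P y := by
  have : FaithfulSMul P L := (faithfulSMul_iff_algebraMap_injective P L).mpr hinj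
  have hc0 : c ≠ 0 := by
    rintro rfl
    exact hc (dvd_zero _)
  have e : (minpoly P (π • y)).scaleRoots c = (minpoly P (c • y)).scaleRoots π := by
    rw [← IsIntegrallyClosed.minpoly_smul hc0 h1, ← IsIntegrallyClosed.minpoly_smul hπ.ne_zero h2,
      smul_comm]
  have hdeg : (minpoly P (π • y)).natDegree = (minpoly P (c • y)).natDegree := by
    have := congrArg natDegree e
    simpa [natDegree_scaleRoots] using this
  have hmonic : (minpoly P (π • y)).Monic := minpoly.monic h1
  have hroot : aeval (π • y) (minpoly P (π • y)) = 0 := minpoly.aeval _ _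
  generalize minpoly P (π • y) = μ1 at *
  generalize minpoly P (c • y) = μ2 at *
  set n := μ1.natDegree with hn
  have hdvd : ∀ i, π ^ (n - i) ∣ μ1.coeff i := by
    intro i
    have h := congrArg (fun p => p.coeff i) e
    simp only [coeff_scaleRoots] at h
    apply hπ.pow_dvd_of_dvd_mul_right (n - i) (b := c ^ (n - i))
    · exact fun h => hc (hπ.dvd_of_dvd_pow h)
    · rw [h, ← hdeg]
      exact dvd_mul_left _ _
  choose a ha using hdvd
  refine ⟨X ^ n + ∑ i ∈ Finset.range n, C (a i) * X ^ i, ?_, ?_⟩
  · apply monic_X_pow_add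
    refine (degree_sum_le _ _).trans_lt ?_
    refine (Finset.sup_lt_iff (WithBot.bot_lt_coe n)).mpr ?_
    intro i hi
    exact (degree_C_mul_X_pow_le i (a i)).trans_lt (WithBot.coe_lt_coe.mpr (Finset.mem_range.mp hi))
  · have hπL : algebraMap P L π ≠ 0 := by
      rw [Ne, ← map_zero (algebraMap P L)]
      exact fun h => hπ.ne_zero (hinj h)
    apply mul_left_cancel₀ (pow_ne_zero n hπL)
    rw [mul_zero, ← hroot, aeval_eq_sum_range, ← hn, Finset.sum_range_succ]
    have hlead : μ1.coeff n = 1 := hmonic
    rw [hlead, one_smul, eval₂_add, eval₂_finsetSum, mul_add, Finset.mul_sum, add_comm]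
    congr 1
    · refine Finset.sum_congr rfl fun i hi => ?_
      have hi' : i ≤ n := (Finset.mem_range.mp hi).le
      rw [ha i, eval₂_mul, eval₂_C, eval₂_X_pow, Algebra.smul_def, Algebra.smul_def, map_mul,
        map_pow, mul_pow]
      have : algebraMap P L π ^ n = algebraMap P L π ^ (n - i) * algebraMap P L π ^ i := by
        rw [← pow_add, Nat.sub_add_cancel hi']
      rw [this]
      ring
    · rw [eval₂_X_pow, Algebra.smul_def, mul_pow]

/-- If `π y` and `c y` are integral over an integrally closed domain `P`, with `π` prime and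
`π ∤ c`, then `y` is integral over `P`. (Compare the coefficients of the minimal polynomials of
`y`, `π y`, `c y` over `Frac P`.) -/
theorem isIntegralElem_of_mul_of_prime {P L : Type*} [CommRing P] [IsDomain P]
    [IsIntegrallyClosed P] [Field L] (f : P →+* L) (hf : Function.Injective f)
    {π c : P} (hπ : Prime π) (hc : ¬ π ∣ c) {y : L}
    (h1 : f.IsIntegralElem (f π * y)) (h2 : f.IsIntegralElem (f c * y)) :
    f.IsIntegralElem y := by
  let _ : Algebra P L := f.toAlgebra
  exact isIntegral_of_smul_of_prime (P := P) (L := L) hf hπ hc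
    (by rw [Algebra.smul_def]; exact h1) (by rw [Algebra.smul_def]; exact h2)

/-- integrality over `R[T]` expressed through the evaluation homomorphism. -/
theorem isIntegral_adjoin_singleton_iff {R L : Type*} [CommRing R] [CommRing L] [Algebra R L]
    (T y : L) :
    IsIntegral (Algebra.adjoin R {T}) y ↔ (evP R T).IsIntegralElem y := by
  let φ : R[X] →+* Algebra.adjoin R {T} :=
    ((Polynomial.aeval T : R[X] →ₐ[R] L).codRestrict (Algebra.adjoin R {T})
      (fun p => Polynomial.aeval_mem_adjoin_singleton R T)).toRingHom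
  have hφ : Function.Surjective φ := by
    rintro ⟨x, hx⟩
    have hx' := hx
    rw [Algebra.adjoin_singleton_eq_range_aeval] at hx'
    obtain ⟨p, hp⟩ := hx'
    exact ⟨p, Subtype.ext hp⟩
  have hcomp : (algebraMap (Algebra.adjoin R {T}) L).comp φ = evP R T := by
    ext <;> simp [evP, φ]
  constructor
  · rintro ⟨p, hp, hp0⟩
    obtain ⟨q, hq⟩ := Polynomial.map_surjective φ hφ p
    obtain ⟨q', hq', -, hmon⟩ := Polynomial.lifts_and_natDegree_eq_and_monic
      ((Polynomial.mem_lifts _).mpr ⟨q, hq⟩) hp
    refine ⟨q', hmon, ?_⟩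
    rw [← hcomp, ← Polynomial.eval₂_map, hq']
    exact hp0
  · rintro ⟨q, hq, hq0⟩
    refine ⟨q.map φ, hq.map _, ?_⟩
    rw [Polynomial.eval₂_map, hcomp]
    exact hq0

end Fermat.Agent.S28
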