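import Mathlib
import Fermat.Prelude.Def_ModularCurve_IgusaScheme
import Fermat.Prelude.Def_ModularCurve_X0ModL

set_option autoImplicit false

namespace Fermat.Agent.S28

open ModularCurve Polynomial

noncomputable section

/-- coefficientwise base change of Laurent series along `algebraMap`. -/
abbrev embL (R Q : Type*) [CommRing R] [CommRing Q] [Algebra R Q] :
    LaurentSeries R →+* LaurentSeries Q :=
  coeffMap (algebraMap R Q)

/-- coefficientwise reduction of Laurent series over a local ring. -/
abbrev redL (R : Type*) [CommRing R] [IsLocalRing R] :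
    LaurentSeries R →+* LaurentSeries (IsLocalRing.ResidueField R) :=
  coeffMap (IsLocalRing.residue R)

/-- evaluation of polynomials at an element of an algebra, as a ring hom. -/
abbrev evP (R : Type*) {L : Type*} [CommRing R] [CommRing L] [Algebra R L] (T : L) :
    R[X] →+* L :=
  (Polynomial.aeval T : R[X] →ₐ[R] L).toRingHom

/-- the localisation `ℤ_(ℓ)` as in the prelude. -/
abbrev Rl (ℓ : ℕ) : Type := ↥(GaloisRep.ratLocalizedAt ℓ)

end

end Fermat.Agent.S28
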