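import Fermat.Statements.S28

set_option autoImplicit false
open AlgebraicGeometry CategoryTheory CategoryTheory.Limits ModularCurve ModularCurve.IgusaScheme
open TensorProduct

noncomputable section

namespace Fermat.Agent.S28

universe u

/-- A scheme covered by two integral open subschemes which meet is integral. -/
theorem isIntegral_of_two_cover {P U V : Scheme.{u}} (a : U ⟶ P) (b : V ⟶ P)
    [IsOpenImmersion a] [IsOpenImmersion b] [IsIntegral U] [IsIntegral V]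
    (hcov : ∀ x : P, x ∈ Set.range a ∨ x ∈ Set.range b)
    (hmeet : (Set.range a ∩ Set.range b).Nonempty) : IsIntegral P := by
  have hred : IsReduced P := by
    have (x : P) : _root_.IsReduced (P.presheaf.stalk x) := by
      rcases hcov x with ⟨y, rfl⟩ | ⟨y, rfl⟩
      · exact isReduced_of_injective (a.stalkMap y).hom
          (ConcreteCategory.bijective_of_isIso (a.stalkMap y)).1
      · exact isReduced_of_injective (b.stalkMap y).hom
          (ConcreteCategory.bijective_of_isIso (b.stalkMap y)).1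
    exact isReduced_of_isReduced_stalk _
  have hUirr : IsIrreducible (Set.range a) := by
    rw [← Set.image_univ]
    exact (IrreducibleSpace.isIrreducible_univ U).image _ a.continuous.continuousOn
  have hVirr : IsIrreducible (Set.range b) := by
    rw [← Set.image_univ]
    exact (IrreducibleSpace.isIrreducible_univ V).image _ b.continuous.continuousOn
  have hUo : IsOpen (Set.range a) := a.isOpenEmbedding.isOpen_range
  have hVo : IsOpen (Set.range b) := b.isOpenEmbedding.isOpen_range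
  have key : ∀ W : Set P, IsOpen W → W.Nonempty → (W ∩ Set.range a).Nonempty := by
    intro W hW ⟨x, hx⟩
    rcases hcov x with h | h
    · exact ⟨x, hx, h⟩
    · obtain ⟨y, hy⟩ := hVirr.2 W (Set.range a) hW hUo ⟨x, h, hx⟩
        (by obtain ⟨z, hz1, hz2⟩ := hmeet; exact ⟨z, hz2, hz1⟩)
      exact ⟨y, hy.2.1, hy.2.2⟩
  have hirr : IrreducibleSpace P := by
    have : Nonempty P := ⟨hmeet.some⟩
    have : PreirreducibleSpace P := by
      refine ⟨fun W₁ W₂ h₁ h₂ hn₁ hn₂ => ?_⟩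
      rw [Set.univ_inter] at hn₁ hn₂
      obtain ⟨x₁, hx₁⟩ := key W₁ h₁ hn₁
      obtain ⟨x₂, hx₂⟩ := key W₂ h₂ hn₂
      obtain ⟨y, hy⟩ := hUirr.2 W₁ W₂ h₁ h₂ ⟨x₁, hx₁.2, hx₁.1⟩ ⟨x₂, hx₂.2, hx₂.1⟩
      exact ⟨y, Set.mem_univ _, hy.2⟩
    exact ⟨inferInstance⟩
  exact isIntegral_of_irreducibleSpace_of_isReduced P

section Igusa

variable (N : ℕ) [NeZero N] (ℓ : ℕ) [Fact ℓ.Prime]
  (K : Type) [Field K] [Algebra ↥(GaloisRep.ratLocalizedAt ℓ) K]

/-- The base change morphism `Spec K ⟶ Spec ℤ_(ℓ)`. -/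
abbrev baseK : Spec (CommRingCat.of K) ⟶ Spec (CommRingCat.of ↥(GaloisRep.ratLocalizedAt ℓ)) :=
  Spec.map (CommRingCat.ofHom (algebraMap ↥(GaloisRep.ratLocalizedAt ℓ) K))

theorem isIntegral_pullback_spec (A : Type) [CommRing A] [Algebra ↥(GaloisRep.ratLocalizedAt ℓ) A]
    (h : IsDomain (A ⊗[↥(GaloisRep.ratLocalizedAt ℓ)] K)) :
    IsIntegral (pullback (Spec.map (CommRingCat.ofHom (algebraMap ↥(GaloisRep.ratLocalizedAt ℓ) A))) (baseK ℓ K)) := by
  have : IsIntegral (Spec (CommRingCat.of (A ⊗[↥(GaloisRep.ratLocalizedAt ℓ)] K))) := inferInstance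
  exact IsIntegral.of_isIso (pullbackSpecIso ↥(GaloisRep.ratLocalizedAt ℓ) A K).inv

theorem isIntegral_pullback_of_isDomain
    (hFin : IsDomain ((chartAlgFin N ℓ) ⊗[↥(GaloisRep.ratLocalizedAt ℓ)] K))
    (hInf : IsDomain ((chartAlgInf N ℓ) ⊗[↥(GaloisRep.ratLocalizedAt ℓ)] K))
    (hMid : Nontrivial ((chartAlgMid N ℓ) ⊗[↥(GaloisRep.ratLocalizedAt ℓ)] K)) :
    IsIntegral ↑(pullback (igusaTo N ℓ) (baseK ℓ K)) := by
  have hU := isIntegral_pullback_spec ℓ K (chartAlgFin N ℓ) hFin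
  have hV := isIntegral_pullback_spec ℓ K (chartAlgInf N ℓ) hInf
  let a := pullback.map (Spec.map (CommRingCat.ofHom (algebraMap ↥(GaloisRep.ratLocalizedAt ℓ) (chartAlgFin N ℓ))))
    (baseK ℓ K) (igusaTo N ℓ) (baseK ℓ K) (ιFin N ℓ) (𝟙 _) (𝟙 _) (by simp) (by simp)
  let b := pullback.map (Spec.map (CommRingCat.ofHom (algebraMap ↥(GaloisRep.ratLocalizedAt ℓ) (chartAlgInf N ℓ))))
    (baseK ℓ K) (igusaTo N ℓ) (baseK ℓ K) (ιInf N ℓ) (𝟙 _) (𝟙 _) (by simp) (by simp)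
  have ha : Set.range a = pullback.fst (igusaTo N ℓ) (baseK ℓ K) ⁻¹' Set.range (ιFin N ℓ) := by
    simp [a, Scheme.Pullback.range_map]
  have hb : Set.range b = pullback.fst (igusaTo N ℓ) (baseK ℓ K) ⁻¹' Set.range (ιInf N ℓ) := by
    simp [b, Scheme.Pullback.range_map]
  refine isIntegral_of_two_cover a b ?_ ?_
  · intro x
    rw [ha, hb]
    exact mem_range_ιFin_or_mem_range_ιInf N ℓ _
  · rw [ha, hb]
    have hne : Nonempty (Spec (CommRingCat.of ((chartAlgMid N ℓ) ⊗[↥(GaloisRep.ratLocalizedAt ℓ)] K))) :=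
      inferInstanceAs (Nonempty (PrimeSpectrum _))
    obtain ⟨y⟩ := hne
    let c := pullback.map (Spec.map (CommRingCat.ofHom (algebraMap ↥(GaloisRep.ratLocalizedAt ℓ) (chartAlgMid N ℓ))))
      (baseK ℓ K) (igusaTo N ℓ) (baseK ℓ K) (fFin N ℓ ≫ ιFin N ℓ) (𝟙 _) (𝟙 _) (by
        rw [Category.comp_id, Category.assoc, ιFin_igusaTo, ← Spec.map_comp, ← CommRingCat.ofHom_comp]
        rfl) (by simp)
    have hc : c ≫ pullback.fst (igusaTo N ℓ) (baseK ℓ K) =
        pullback.fst _ _ ≫ fFin N ℓ ≫ ιFin N ℓ := pullback.lift_fst _ _ _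
    obtain ⟨z⟩ : Nonempty ↥(pullback (Spec.map (CommRingCat.ofHom
        (algebraMap ↥(GaloisRep.ratLocalizedAt ℓ) (chartAlgMid N ℓ)))) (baseK ℓ K)) :=
      ⟨(pullbackSpecIso ↥(GaloisRep.ratLocalizedAt ℓ) (chartAlgMid N ℓ) K).inv y⟩
    have hcz : pullback.fst (igusaTo N ℓ) (baseK ℓ K) (c z) =
        (fFin N ℓ ≫ ιFin N ℓ) ((pullback.fst (Spec.map (CommRingCat.ofHom
        (algebraMap ↥(GaloisRep.ratLocalizedAt ℓ) (chartAlgMid N ℓ)))) (baseK ℓ K)) z) := by
      rw [← Scheme.Hom.comp_apply, ← Scheme.Hom.comp_apply, hc]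
    refine ⟨c z, ?_, ?_⟩
    · rw [Set.mem_preimage, hcz, Scheme.Hom.comp_apply]
      exact ⟨_, rfl⟩
    · rw [Set.mem_preimage, hcz, glue_condition, Scheme.Hom.comp_apply]
      exact ⟨_, rfl⟩

end Igusa

end Fermat.Agent.S28
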