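import Mathlib

set_option autoImplicit false

noncomputable section

open Polynomial

namespace Fermat.Agent.S28.Tw

section Generic

variable {B : Type*} [CommRing B] (A : Subring B) {ι : Type*} [Fintype ι] [DecidableEq ι]

omit [DecidableEq ι] in
private theorem mpAlg_esymm_mem (hA : ∀ n : ℕ, n ≠ 0 → ∃ b ∈ A, (n : B) * b = 1) (x : ι → B)
    (hx : ∀ m : ℕ, 1 ≤ m → ∑ i, x i ^ m ∈ A) (k : ℕ) :
    MvPolynomial.aeval x (MvPolynomial.esymm ι ℤ k) ∈ A := by
  induction k using Nat.strong_induction_on with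
  | _ k ih =>
    rcases Nat.eq_zero_or_pos k with rfl | hk
    · simp
    · obtain ⟨b, hb, hkb⟩ := hA k hk.ne'
      have hN := congrArg (MvPolynomial.aeval x) (MvPolynomial.mul_esymm_eq_sum ι ℤ k)
      simp only [map_mul, map_natCast, map_pow, map_neg, map_one, map_sum] at hN
      have hmem : (k : B) * MvPolynomial.aeval x (MvPolynomial.esymm ι ℤ k) ∈ A := by
        rw [hN]
        refine A.mul_mem (A.pow_mem (A.neg_mem A.one_mem) _) (A.sum_mem fun a ha => ?_)
        rw [Finset.mem_filter, Finset.HasAntidiagonal.mem_antidiagonal] at ha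
        refine A.mul_mem (A.mul_mem (A.pow_mem (A.neg_mem A.one_mem) _) (ih _ ha.2)) ?_
        have : MvPolynomial.aeval x (MvPolynomial.psum ι ℤ a.2) = ∑ i, x i ^ a.2 := by
          simp [MvPolynomial.psum]
        rw [this]
        exact hx _ (by omega)
      have : MvPolynomial.aeval x (MvPolynomial.esymm ι ℤ k) =
          b * ((k : B) * MvPolynomial.aeval x (MvPolynomial.esymm ι ℤ k)) := by
        rw [← mul_assoc, mul_comm b, hkb, one_mul]
      rw [this]
      exact A.mul_mem hb hmem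

/-- (N1) Newton: if all power sums of `x` lie in the subring `A` (in which the positive integers
are invertible), then so do all coefficients of `∏ (X - x i)`. -/
theorem coeff_prod_X_sub_C_mem (hA : ∀ n : ℕ, n ≠ 0 → ∃ b ∈ A, (n : B) * b = 1) (x : ι → B)
    (hx : ∀ m : ℕ, 1 ≤ m → ∑ i, x i ^ m ∈ A) (n : ℕ) :
    (∏ i, (X - C (x i))).coeff n ∈ A := by
  have hprod : (∏ i, (X - C (x i))) =
      ((Finset.univ.val.map x).map fun t => X - C t).prod := by
    rw [Multiset.map_map]
    rfl
  rw [hprod, Multiset.prod_X_sub_X_eq_sum_esymm, Polynomial.finsetSum_coeff]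
  refine A.sum_mem fun j _ => ?_
  rw [← MvPolynomial.aeval_esymm_eq_multiset_esymm ι ℤ]
  have h1 : ((-1 : B[X]) ^ j * (C (MvPolynomial.aeval x (MvPolynomial.esymm ι ℤ j)) *
      X ^ ((Finset.univ.val.map x).card - j))) =
      C ((-1) ^ j * MvPolynomial.aeval x (MvPolynomial.esymm ι ℤ j)) *
        X ^ ((Finset.univ.val.map x).card - j) := by
    simp only [map_mul, map_pow, map_neg, map_one]
    ring
  rw [h1, Polynomial.coeff_C_mul, Polynomial.coeff_X_pow]
  refine A.mul_mem (A.mul_mem (A.pow_mem (A.neg_mem A.one_mem) _)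
    (mpAlg_esymm_mem A hA x hx j)) ?_
  split_ifs
  · exact A.one_mem
  · exact A.zero_mem

/-- (N2) mixed power sums: from the range `m ≤ M` to all `(m, M)`, when `∏ u` is a unit of `A`. -/
theorem mixed_psum_mem (hA : ∀ n : ℕ, n ≠ 0 → ∃ b ∈ A, (n : B) * b = 1) (x u : ι → B)
    (h : ∀ M : ℕ, 1 ≤ M → ∀ m : ℕ, m ≤ M → ∑ i, x i ^ m * u i ^ M ∈ A)
    (hu : ∃ d ∈ A, (∏ i, u i) * d = 1) (m M : ℕ) :
    ∑ i, x i ^ m * u i ^ M ∈ A := by
  obtain ⟨d, hd, hud⟩ := hu
  set P : B[X] := ∏ i, (X - C (u i)) with hP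
  have ha : ∀ k, P.coeff k ∈ A := fun k =>
    coeff_prod_X_sub_C_mem A hA u (fun M hM => by simpa using h M hM 0 (Nat.zero_le _)) k
  set n := Fintype.card ι with hn
  have hdeg : P.natDegree < n + 1 := by
    refine Nat.lt_succ_of_le ((Polynomial.natDegree_prod_le _ _).trans ?_)
    have h1 : ∑ i : ι, (X - C (u i)).natDegree ≤ ∑ _i : ι, 1 :=
      Finset.sum_le_sum fun i _ => Polynomial.natDegree_X_sub_C_le (u i)
    simpa [hn] using h1
  have h0 : P.coeff 0 = (-1) ^ n * ∏ i, u i := by
    rw [Polynomial.coeff_zero_eq_eval_zero, hP, Polynomial.eval_prod]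
    simp only [eval_sub, eval_X, eval_C, zero_sub]
    rw [Finset.prod_neg, Finset.card_univ]
  -- the inverse of `u i` as a polynomial in `u i`
  set r : ℕ → B := fun k => -((-1) ^ n * d * P.coeff (k + 1)) with hr
  have hrA : ∀ k, r k ∈ A := fun k =>
    A.neg_mem (A.mul_mem (A.mul_mem (A.pow_mem (A.neg_mem A.one_mem) _) hd) (ha _))
  have hinv : ∀ i, ∑ k ∈ Finset.range n, r k * u i ^ (k + 1) = 1 := by
    intro i
    have hroot : P.eval (u i) = 0 := by
      rw [hP, Polynomial.eval_prod]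
      exact Finset.prod_eq_zero (Finset.mem_univ i) (by simp)
    rw [Polynomial.eval_eq_sum_range' hdeg, Finset.sum_range_succ', pow_zero, mul_one, h0] at hroot
    have h1 : ∑ k ∈ Finset.range n, r k * u i ^ (k + 1) =
        -((-1) ^ n * d) * ∑ k ∈ Finset.range n, P.coeff (k + 1) * u i ^ (k + 1) := by
      rw [Finset.mul_sum]
      refine Finset.sum_congr rfl fun k _ => ?_
      simp only [hr]
      ring
    have h2 : ∑ k ∈ Finset.range n, P.coeff (k + 1) * u i ^ (k + 1) = -((-1) ^ n * ∏ i, u i) :=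
      eq_neg_of_add_eq_zero_left hroot
    rw [h1, h2]
    have h3 : ((-1 : B) ^ n) * (-1) ^ n = 1 := by
      rw [← mul_pow]; simp
    calc -((-1) ^ n * d) * -((-1) ^ n * ∏ i, u i)
        = ((-1 : B) ^ n * (-1) ^ n) * ((∏ i, u i) * d) := by ring
      _ = 1 := by rw [h3, hud, one_mul]
  have hstep : ∀ M, ∑ i, x i ^ m * u i ^ M =
      ∑ k ∈ Finset.range n, r k * ∑ i, x i ^ m * u i ^ (M + 1 + k) := by
    intro M
    calc ∑ i, x i ^ m * u i ^ M
        = ∑ i, x i ^ m * u i ^ M * ∑ k ∈ Finset.range n, r k * u i ^ (k + 1) := by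
          refine Finset.sum_congr rfl fun i _ => ?_
          rw [hinv i, mul_one]
      _ = ∑ i, ∑ k ∈ Finset.range n, r k * (x i ^ m * u i ^ (M + 1 + k)) := by
          refine Finset.sum_congr rfl fun i _ => ?_
          rw [Finset.mul_sum]
          refine Finset.sum_congr rfl fun k _ => ?_
          rw [show M + 1 + k = M + (k + 1) by ring, pow_add]
          ring
      _ = ∑ k ∈ Finset.range n, r k * ∑ i, x i ^ m * u i ^ (M + 1 + k) := by
          rw [Finset.sum_comm]
          refine Finset.sum_congr rfl fun k _ => ?_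
          rw [Finset.mul_sum]
  have key : ∀ s M : ℕ, max m 1 ≤ M + s → ∑ i, x i ^ m * u i ^ M ∈ A := by
    intro s
    induction s with
    | zero =>
      intro M hM
      exact h M (by omega) m (by omega)
    | succ s ih =>
      intro M hM
      rw [hstep M]
      exact A.sum_mem fun k _ => A.mul_mem (hrA k) (ih _ (by omega))
  exact key (max m 1) M (by omega)

end Generic

end Fermat.Agent.S28.Tw
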