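import Mathlib

set_option autoImplicit false

noncomputable section

open Polynomial

namespace Fermat.Agent.S28.Tw

section Generic

variable {B : Type*} [CommRing B] (A : Subring B) {ι : Type*} [Fintype ι] [DecidableEq ι]

/-- The Lagrange interpolant `∑ u_i ∏_{j ≠ i} (X - x_j)`. -/
def lagr (x u : ι → B) : B[X] :=
  ∑ i, C (u i) * ∏ j ∈ Finset.univ.erase i, (X - C (x j))

theorem prod_erase_eq_divByMonic (x : ι → B) (i : ι) :
    ∏ j ∈ Finset.univ.erase i, (X - C (x j)) = (∏ j, (X - C (x j))) /ₘ (X - C (x i)) := by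
  rw [← Finset.mul_prod_erase Finset.univ (fun j => X - C (x j)) (Finset.mem_univ i),
    Polynomial.mul_divByMonic_cancel_left _ (monic_X_sub_C _)]

/-- (N3) the coefficients of the Lagrange interpolant lie in `A`. -/
theorem coeff_lagr_mem (x u : ι → B)
    (hx : ∀ n : ℕ, (∏ i, (X - C (x i))).coeff n ∈ A)
    (h : ∀ m : ℕ, ∑ i, x i ^ m * u i ^ 1 ∈ A) (n : ℕ) :
    (lagr x u).coeff n ∈ A := by
  have key : (lagr x u).coeff n =
      ∑ k ∈ Finset.Icc (n + 1) (∏ j, (X - C (x j))).natDegree,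
        (∑ i, x i ^ (k - (n + 1)) * u i ^ 1) * (∏ j, (X - C (x j))).coeff k := by
    rw [lagr, Polynomial.finsetSum_coeff]
    simp_rw [Polynomial.coeff_C_mul, prod_erase_eq_divByMonic, Polynomial.coeff_divByMonic_X_sub_C,
      Finset.mul_sum, Finset.sum_mul]
    rw [Finset.sum_comm]
    refine Finset.sum_congr rfl fun k _ => Finset.sum_congr rfl fun i _ => ?_
    ring
  rw [key]
  exact Subring.sum_mem _ fun k _ => Subring.mul_mem _ (h _) (hx _)

/-- (N3') value of the Lagrange interpolant at a node. -/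
theorem eval_lagr (x u : ι → B) (i₀ : ι) :
    (lagr x u).eval (x i₀) =
      u i₀ * ((∏ i, (X - C (x i))) /ₘ (X - C (x i₀))).eval (x i₀) := by
  rw [lagr, Polynomial.eval_finsetSum, Finset.sum_eq_single i₀]
  · rw [Polynomial.eval_mul, Polynomial.eval_C, prod_erase_eq_divByMonic]
  · intro i _ hi
    rw [Polynomial.eval_mul, Polynomial.eval_prod,
      Finset.prod_eq_zero (Finset.mem_erase.mpr ⟨hi.symm, Finset.mem_univ i₀⟩) (by simp), mul_zero]
  · intro h; exact absurd (Finset.mem_univ _) h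

end Generic

end Fermat.Agent.S28.Tw
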