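import Mathlib

set_option autoImplicit false

noncomputable section

open Polynomial IntermediateField

namespace Fermat.Agent.S28.Tw

variable {k E : Type*} [Field k] [Field E] [Algebra k E]

/-- lifting a polynomial with coefficients in `A` -/
theorem exists_lift_of_coeff_mem (A : IntermediateField k E) (f : E[X])
    (hfA : ∀ i, f.coeff i ∈ A) : ∃ f0 : A[X], f0.map (algebraMap A E) = f := by
  have : f ∈ lifts (algebraMap A E) := by
    rw [lifts_iff_coeff_lifts]
    intro n
    exact ⟨⟨f.coeff n, hfA n⟩, rfl⟩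
  exact this

theorem exists_monic_lift_of_coeff_mem (A : IntermediateField k E) (f : E[X]) (hf : f.Monic)
    (hfA : ∀ i, f.coeff i ∈ A) :
    ∃ f0 : A[X], f0.map (algebraMap A E) = f ∧ f0.natDegree = f.natDegree ∧ f0.Monic := by
  have : f ∈ lifts (algebraMap A E) := by
    rw [lifts_iff_coeff_lifts]
    intro n
    exact ⟨⟨f.coeff n, hfA n⟩, rfl⟩
  exact lifts_and_natDegree_eq_and_monic this hf

theorem relrank_sup_adjoin_of_isIntegral (A : IntermediateField k E) (x : E)
    (hx : IsIntegral A x) :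
    relrank A (A ⊔ adjoin k {x}) = ((minpoly A x).natDegree : Cardinal) := by
  rw [relrank_eq_rank_of_le le_sup_left]
  have h : extendScalars (le_sup_left : A ≤ A ⊔ adjoin k {x}) = adjoin A {x} :=
    restrictScalars_injective k (by
      rw [extendScalars_restrictScalars, restrictScalars_adjoin_eq_sup])
  rw [h]
  have := adjoin.finiteDimensional hx
  rw [← Module.finrank_eq_rank, adjoin.finrank hx]

/-- (R1) adjoining a root of a monic polynomial of degree `n`. -/
theorem relrank_sup_adjoin_le (A : IntermediateField k E) (x : E) (f : E[X]) (hf : f.Monic)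
    (hfA : ∀ i, f.coeff i ∈ A) (hx : f.eval x = 0) :
    relrank A (A ⊔ adjoin k {x}) ≤ (f.natDegree : Cardinal) := by
  obtain ⟨f0, hf0, hdeg, hmon⟩ := exists_monic_lift_of_coeff_mem A f hf hfA
  have hroot : aeval x f0 = 0 := by
    rw [aeval_def, ← eval_map, hf0, hx]
  have hint : IsIntegral A x := ⟨f0, hmon, by rwa [aeval_def] at hroot⟩
  rw [relrank_sup_adjoin_of_isIntegral A x hint, ← hdeg]
  exact_mod_cast natDegree_le_of_dvd (minpoly.dvd A x hroot) hmon.ne_zero

/-- (R2) lower bound from independent powers. -/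
theorem le_relrank_of_pow_indep (A B : IntermediateField k E) (hAB : A ≤ B) (x : E) (hx : x ∈ B)
    (n : ℕ) (h : ∀ c : Fin n → E, (∀ i, c i ∈ A) → ∑ i, c i * x ^ (i : ℕ) = 0 → c = 0) :
    (n : Cardinal) ≤ relrank A B := by
  rw [relrank_eq_rank_of_le hAB]
  have hli : LinearIndependent A
      (fun i : Fin n => (⟨x, hx⟩ : extendScalars hAB) ^ (i : ℕ)) := by
    rw [Fintype.linearIndependent_iff]
    intro g hg i
    have h1 := h (fun i => (g i : E)) (fun i => (g i).2) (by
      have h2 := congrArg (fun y : extendScalars hAB => (y : E)) hg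
      simp only [AddSubmonoidClass.coe_finsetSum, ZeroMemClass.coe_zero] at h2
      rw [← h2]
      refine Finset.sum_congr rfl fun i _ => ?_
      rfl)
    have h3 := congrFun h1 i
    exact Subtype.ext h3
  have := hli.cardinal_lift_le_rank
  simpa using this

/-- (R3) monotonicity. -/
theorem relrank_mono_right (A B C : IntermediateField k E) (hAB : A ≤ B) (hBC : B ≤ C) :
    relrank A B ≤ relrank A C := by
  rw [← relrank_mul_relrank hAB hBC]
  apply Cardinal.le_mul_right
  rw [relrank_eq_rank_of_le hBC]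
  exact (rank_pos).ne'

/-- (R4) an element which is the only common root of two polynomials over `A` lies in `A`. -/
theorem mem_of_unique_common_root {Ω : Type*} [Field Ω] (ι : E →+* Ω)
    (A : IntermediateField k E) (x : E) (f g : E[X]) (hfA : ∀ i, f.coeff i ∈ A)
    (hgA : ∀ i, g.coeff i ∈ A) (hgx : g.eval x = 0)
    {σ : Type*} [Fintype σ] (r : σ → Ω)
    (hf : f.map ι = (X - C (ι x)) * ∏ i, (X - C (r i)))
    (hr : ∀ i, (g.map ι).eval (r i) ≠ 0) : x ∈ A := by
  obtain ⟨f0, hf0⟩ := exists_lift_of_coeff_mem A f hfA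
  obtain ⟨g0, hg0⟩ := exists_lift_of_coeff_mem A g hgA
  have hfx : f.eval x = 0 := by
    apply ι.injective
    rw [map_zero, ← eval_map_apply, hf]
    simp
  have hfne : f ≠ 0 := by
    intro h0
    rw [h0, Polynomial.map_zero] at hf
    have hm : ((X - C (ι x)) * ∏ i, (X - C (r i))).Monic :=
      (monic_X_sub_C _).mul (monic_prod_of_monic _ _ fun i _ => monic_X_sub_C _)
    exact hm.ne_zero hf.symm
  have hf0ne : f0 ≠ 0 := by
    intro h0; apply hfne; rw [← hf0, h0, Polynomial.map_zero]
  have hroot : aeval x f0 = 0 := by rw [aeval_def, ← eval_map, hf0, hfx]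
  have hrootg : aeval x g0 = 0 := by rw [aeval_def, ← eval_map, hg0, hgx]
  have hint : IsIntegral A x := (isAlgebraic_iff_isIntegral).mp ⟨f0, hf0ne, hroot⟩
  set m := minpoly A x with hm
  set M : Polynomial Ω := (m.map (algebraMap A E)).map ι with hM
  have hMf : M ∣ f.map ι := by
    rw [← hf0]
    exact Polynomial.map_dvd _ (Polynomial.map_dvd _ (minpoly.dvd A x hroot))
  have hMg : M ∣ g.map ι := by
    rw [← hg0]
    exact Polynomial.map_dvd _ (Polynomial.map_dvd _ (minpoly.dvd A x hrootg))
  have hcop : IsCoprime M (∏ i, (X - C (r i))) := by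
    apply IsCoprime.prod_right
    intro i _
    apply IsCoprime.symm
    rw [(irreducible_X_sub_C (r i)).coprime_iff_not_dvd, dvd_iff_isRoot]
    intro hroot'
    apply hr i
    obtain ⟨q, hq⟩ := hMg
    rw [hq, eval_mul, hroot'.eq_zero, zero_mul]
  have hdvd : M ∣ X - C (ι x) := by
    rw [hf] at hMf
    exact hcop.dvd_of_dvd_mul_right hMf
  have hdeg : m.natDegree ≤ 1 := by
    have h1 := natDegree_le_of_dvd hdvd (X_sub_C_ne_zero _)
    rw [natDegree_X_sub_C, hM, natDegree_map, natDegree_map] at h1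
    exact h1
  have hdeg1 : m.natDegree = 1 := le_antisymm hdeg (minpoly.natDegree_pos hint)
  obtain ⟨a, ha⟩ := (minpoly.natDegree_eq_one_iff).mp hdeg1
  rw [← ha]
  exact a.2

/-- (R5') the minimal polynomial under the hypotheses of (R5). -/
theorem minpoly_map_eq_of_irreducible_cofactor (A : IntermediateField k E) (x : E) (f : E[X])
    (hf : f.Monic) (hfA : ∀ i, f.coeff i ∈ A) (hx : f.eval x = 0)
    (hirr : Irreducible (f /ₘ (X - C x))) (hxA : x ∉ A) :
    (minpoly A x).map (algebraMap A E) = f := by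
  obtain ⟨f0, hf0, hdeg, hmon⟩ := exists_monic_lift_of_coeff_mem A f hf hfA
  have hroot : aeval x f0 = 0 := by
    rw [aeval_def, ← eval_map, hf0, hx]
  have hint : IsIntegral A x := ⟨f0, hmon, by rwa [aeval_def] at hroot⟩
  set M : E[X] := (minpoly A x).map (algebraMap A E) with hM
  have hMmon : M.Monic := (minpoly.monic hint).map _
  have hMf : M ∣ f := by
    rw [← hf0]; exact Polynomial.map_dvd _ (minpoly.dvd A x hroot)
  have hfg : (X - C x) * (f /ₘ (X - C x)) = f := mul_divByMonic_eq_iff_isRoot.mpr hx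
  have hMx : IsRoot M x := by
    rw [IsRoot.def, hM, eval_map, ← aeval_def, minpoly.aeval]
  obtain ⟨h, hh⟩ := dvd_iff_isRoot.mpr hMx
  have hhg : h ∣ f /ₘ (X - C x) := by
    rw [hh, ← hfg] at hMf
    exact (mul_dvd_mul_iff_left (X_sub_C_ne_zero x)).mp hMf
  have hh0 : h ≠ 0 := by
    rintro rfl
    rw [mul_zero] at hh
    exact hMmon.ne_zero hh
  rcases (hirr.dvd_iff).mp hhg with hu | hass
  · exfalso
    apply hxA
    have h1 : M.natDegree = 1 := by
      rw [hh, natDegree_mul (X_sub_C_ne_zero x) hh0, natDegree_X_sub_C,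
        natDegree_eq_zero_of_isUnit hu]
    rw [hM, natDegree_map] at h1
    obtain ⟨a, ha⟩ := (minpoly.natDegree_eq_one_iff).mp h1
    rw [← ha]
    exact a.2
  · symm
    apply eq_of_monic_of_dvd_of_natDegree_le hMmon hf hMf
    have h2 : (f /ₘ (X - C x)).natDegree = h.natDegree :=
      natDegree_eq_of_degree_eq (degree_eq_degree_of_associated hass)
    rw [← hfg, hh, natDegree_mul (X_sub_C_ne_zero x) hirr.ne_zero,
      natDegree_mul (X_sub_C_ne_zero x) hh0, h2]

/-- (R5) exact degree from an irreducible cofactor: if `f = (X - x) g` over `E`, `f` has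
coefficients in `A`, `g` is irreducible over `E` and `x ∉ A`, then `[A(x) : A] = deg f`. -/
theorem relrank_sup_adjoin_eq (A : IntermediateField k E) (x : E) (f : E[X]) (hf : f.Monic)
    (hfA : ∀ i, f.coeff i ∈ A) (hx : f.eval x = 0)
    (hirr : Irreducible (f /ₘ (X - C x))) (hxA : x ∉ A) :
    relrank A (A ⊔ adjoin k {x}) = (f.natDegree : Cardinal) := by
  obtain ⟨f0, hf0, hdeg, hmon⟩ := exists_monic_lift_of_coeff_mem A f hf hfA
  have hroot : aeval x f0 = 0 := by
    rw [aeval_def, ← eval_map, hf0, hx]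
  have hint : IsIntegral A x := ⟨f0, hmon, by rwa [aeval_def] at hroot⟩
  rw [relrank_sup_adjoin_of_isIntegral A x hint,
    ← minpoly_map_eq_of_irreducible_cofactor A x f hf hfA hx hirr hxA, natDegree_map]

end Fermat.Agent.S28.Tw
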